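import Fermat.Agent.RelPic.Modules.Glue

/-!
# Invertible modules on affine opens
-/

set_option autoImplicit false

noncomputable section

universe u

open CategoryTheory CategoryTheory.Limits AlgebraicGeometry TopologicalSpace Opposite

namespace Fermat.Agent.RelPic

variable {X : Scheme.{u}}

/-- The structure sheaf as a module. -/
abbrev unitMod (X : Scheme.{u}) : X.Modules := SheafOfModules.unit X.ringCatSheaf

/-- A section of the structure sheaf as a section of the unit module. -/
def toUnit (V : X.Opens) : Γ(X, V) ≃ₗ[Γ(X, V)] Γ(unitMod X, V) where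
  toFun r := r
  invFun r := r
  map_add' _ _ := rfl
  map_smul' _ _ := rfl
  left_inv _ := rfl
  right_inv _ := rfl

theorem resSec_toUnit {V W : X.Opens} (h : W ≤ V) (r : Γ(X, V)) :
    resSec (unitMod X) h (toUnit V r) = toUnit W (X.presheaf.map (homOfLE h).op r) := rfl

/-- An invertible linear morphism on an open. -/
def IsoOn.ofBijective {M N : X.Modules} {U : X.Opens} (φ : HomOn M N U)
    (h : ∀ V hV, Function.Bijective (φ.app V hV)) : IsoOn M N U where
  hom := φ
  inv :=
    { app := fun V hV => (LinearEquiv.ofBijective (φ.app V hV) (h V hV)).symm.toLinearMap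
      natural := fun V W hV hle x => (h W (hle.trans hV)).1 (by
        show φ.app W _ ((LinearEquiv.ofBijective _ (h W _)).symm _) =
          φ.app W _ (resSec M hle ((LinearEquiv.ofBijective _ (h V hV)).symm x))
        rw [φ.natural V W hV hle]
        exact ((LinearEquiv.ofBijective _ (h W (hle.trans hV))).apply_symm_apply _).trans
          (congrArg (resSec N hle)
            ((LinearEquiv.ofBijective _ (h V hV)).apply_symm_apply x)).symm) }
  hom_inv := HomOn.ext' fun V hV x =>
    (LinearEquiv.ofBijective _ (h V hV)).symm_apply_apply x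
  inv_hom := HomOn.ext' fun V hV x =>
    (LinearEquiv.ofBijective _ (h V hV)).apply_symm_apply x

/-- The morphism from the structure sheaf given by a section. -/
def smulHom {M : X.Modules} {U : X.Opens} (s : Γ(M, U)) : HomOn (unitMod X) M U where
  app V hV :=
    { toFun := fun r => (toUnit V).symm r • resSec M hV s
      map_add' := fun r r' => by rw [map_add, add_smul]
      map_smul' := fun r r' => by rw [map_smul, smul_eq_mul, mul_smul, RingHom.id_apply] }
  natural V W hV h r := by
    show (toUnit W).symm (resSec (unitMod X) h r) • resSec M (h.trans hV) s =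
      resSec M h ((toUnit V).symm r • resSec M hV s)
    rw [resSec_smul, resSec_resSec]
    rfl

@[simp] theorem smulHom_app {M : X.Modules} {U : X.Opens} (s : Γ(M, U)) (V : X.Opens) (hV : V ≤ U)
    (r : Γ(X, V)) : (smulHom s).app V hV (toUnit V r) = r • resSec M hV s := rfl

theorem HomOn.eq_smulHom {M : X.Modules} {U : X.Opens} (φ : HomOn (unitMod X) M U) :
    φ = smulHom (φ.app U le_rfl (toUnit U 1)) :=
  HomOn.ext' fun V hV r => by
    obtain ⟨r, rfl⟩ := (toUnit V).surjective r
    rw [smulHom_app, ← φ.natural, resSec_toUnit, map_one, ← map_smul, ← map_smul, smul_eq_mul,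
      mul_one]

/-- A section generating a module freely on every smaller open. -/
def IsGen {M : X.Modules} {U : X.Opens} (s : Γ(M, U)) : Prop :=
  ∀ (V : X.Opens) (hV : V ≤ U), Function.Bijective fun r : Γ(X, V) => r • resSec M hV s

theorem IsGen.restrict {M : X.Modules} {U U' : X.Opens} {s : Γ(M, U)} (hs : IsGen s)
    (h : U' ≤ U) : IsGen (resSec M h s) := fun V hV => by
  simpa only [resSec_resSec] using hs V (hV.trans h)

/-- The trivialisation given by a generator. -/
def IsGen.isoOn {M : X.Modules} {U : X.Opens} {s : Γ(M, U)} (hs : IsGen s) :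
    IsoOn (unitMod X) M U :=
  IsoOn.ofBijective (smulHom s) fun V hV => (hs V hV).comp (toUnit V).symm.bijective

theorem isGen_of_isoOn {M : X.Modules} {U : X.Opens} (e : IsoOn (unitMod X) M U) :
    IsGen (e.hom.app U le_rfl (toUnit U 1)) := fun V hV => by
  have h := ((e.appEquiv V hV).bijective).comp (toUnit V).bijective
  convert h using 1
  funext r
  show _ = e.hom.app V hV (toUnit V r)
  conv_rhs => rw [e.hom.eq_smulHom, smulHom_app]

/-- The coordinate with respect to a generator. -/
def IsGen.equiv {M : X.Modules} {U : X.Opens} {s : Γ(M, U)} (hs : IsGen s) :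
    Γ(X, U) ≃ₗ[Γ(X, U)] Γ(M, U) :=
  LinearEquiv.ofBijective (LinearMap.toSpanSingleton Γ(X, U) Γ(M, U) s) (by
    have h := hs U le_rfl
    simp only [resSec_self] at h
    exact h)

@[simp] theorem IsGen.equiv_apply {M : X.Modules} {U : X.Opens} {s : Γ(M, U)} (hs : IsGen s)
    (r : Γ(X, U)) : hs.equiv r = r • s := rfl

theorem exists_isGen {M : X.Modules} (hM : Scheme.Modules.IsInvertible M) (x : X) :
    ∃ U : X.Opens, x ∈ U ∧ ∃ s : Γ(M, U), IsGen s := by
  obtain ⟨U, hx, ⟨e⟩⟩ := isInvertible_iff.mp hM x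
  exact ⟨U, hx, _, isGen_of_isoOn e.symm⟩

theorem isInvertible_of_isGen {M : X.Modules}
    (h : ∀ x : X, ∃ U : X.Opens, x ∈ U ∧ ∃ s : Γ(M, U), IsGen s) :
    Scheme.Modules.IsInvertible M :=
  isInvertible_iff.mpr fun x => by
    obtain ⟨U, hx, s, hs⟩ := h x
    exact ⟨U, hx, ⟨hs.isoOn.symm⟩⟩

/-- A trivialisation as an isomorphism of the restrictions to the slice site. -/
def IsoOn.overIso {M N : X.Modules} {U : X.Opens} (e : IsoOn M N U) :
    SheafOfModules.over M U ≅ SheafOfModules.over N U :=
  (Scheme.Modules.overEquiv U).fullyFaithfulFunctor.preimageIso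
    ((Scheme.Modules.overFunctorEquiv U).app M ≪≫ IsoOn.equivRestrict e ≪≫
      ((Scheme.Modules.overFunctorEquiv U).app N).symm)

theorem isQuasicoherent_unitMod : (unitMod X).IsQuasicoherent := by
  have : (SheafOfModules.free.{u} (R := X.ringCatSheaf) PUnit.{u + 1}).IsQuasicoherent :=
    inferInstance
  exact (SheafOfModules.isQuasicoherent X.ringCatSheaf).prop_of_iso
    (coproductUniqueIso fun _ : PUnit.{u + 1} => unitMod X) this

theorem isQuasicoherent_of_isInvertible {M : X.Modules} (hM : Scheme.Modules.IsInvertible M) :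
    M.IsQuasicoherent := by
  have hu : ∀ x : X, ∃ U : X.Opens, x ∈ U ∧ Nonempty (IsoOn M (unitMod X) U) :=
    isInvertible_iff.mp hM
  choose U hx e using hu
  have hq : ∀ x, (SheafOfModules.over M (U x)).IsQuasicoherent := fun x =>
    (SheafOfModules.isQuasicoherent.{u} (X.ringCatSheaf.over (U x))).prop_of_iso
      (e x).some.overIso.symm
      (have := isQuasicoherent_unitMod (X := X)
       SheafOfModules.isQuasicoherent_over (unitMod X) (U x))
  refine SheafOfModules.IsQuasicoherent.of_coversTop M U ?_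
  rw [Opens.coversTop_iff]
  exact Opens.ext (Set.eq_univ_of_forall fun x =>
    TopologicalSpace.Opens.mem_iSup.mpr ⟨x, hx x⟩)

section Localising

variable {U : X.Opens} (hU : IsAffineOpen U)

theorem image_basicOpen_le (f : Γ(X, U)) :
    hU.fromSpec ''ᵁ PrimeSpectrum.basicOpen f ≤ U := by
  rw [hU.fromSpec_image_basicOpen]
  exact X.basicOpen_le f

theorem fromSpec_appIso_inv_res {W : (Spec Γ(X, U)).Opens} (hW : hU.fromSpec ''ᵁ W ≤ U)
    (r : Γ(X, U)) :
    (hU.fromSpec.appIso W).inv ((Spec Γ(X, U)).presheaf.map W.leTop.op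
      ((Scheme.ΓSpecIso Γ(X, U)).inv r)) = X.presheaf.map (homOfLE hW).op r := by
  have h := congr($(hU.fromSpec.appLE_appIso_inv
    (show W ≤ hU.fromSpec ⁻¹ᵁ U by rw [hU.fromSpec_preimage_self]; exact le_top)).hom r)
  refine Eq.trans ?_ h
  show _ = (hU.fromSpec.appIso W).inv (hU.fromSpec.appLE U W _ r)
  rw [Scheme.Hom.appLE, CommRingCat.comp_apply, hU.fromSpec_app_self_apply]
  congr 1

theorem fromSpec_image_top_eq : hU.fromSpec ''ᵁ (⊤ : (Spec Γ(X, U)).Opens) = U := by
  rw [Scheme.Hom.image_top_eq_opensRange, hU.opensRange_fromSpec]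

theorem restrict_fromSpec_smul (M : X.Modules) {W : (Spec Γ(X, U)).Opens}
    (hW : hU.fromSpec ''ᵁ W ≤ U) (r : Γ(X, U)) (x : Γ(M.restrict hU.fromSpec, W)) :
    (show Γ(M, hU.fromSpec ''ᵁ W) from r • x) =
      X.presheaf.map (homOfLE hW).op r • (show Γ(M, hU.fromSpec ''ᵁ W) from x) := by
  rw [← fromSpec_appIso_inv_res hU hW r]
  rfl

variable (M : X.Modules) [(M.restrict hU.fromSpec).IsQuasicoherent]

theorem isLocalizing_restrict :
    IsLocalizing (modulesSpecToSheaf.obj (M.restrict hU.fromSpec)) :=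
  (isIso_fromTildeΓ_iff_isLocalizing _).mp inferInstance

include hU in
/-- Sections over a basic open of an affine open extend after multiplying by a power. -/
theorem exists_pow_smul_eq (f : Γ(X, U)) (x : Γ(M, X.basicOpen f)) :
    ∃ (n : ℕ) (t : Γ(M, U)), resSec M (X.basicOpen_le f) t =
      X.presheaf.map (homOfLE (X.basicOpen_le f)).op (f ^ n) • x := by
  have hloc := isLocalizing_restrict hU M f
  have hD : hU.fromSpec ''ᵁ PrimeSpectrum.basicOpen f = X.basicOpen f :=
    hU.fromSpec_image_basicOpen f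
  have hT := fromSpec_image_top_eq hU
  let y : Γ(M.restrict hU.fromSpec, PrimeSpectrum.basicOpen f) := resSec M hD.le x
  obtain ⟨⟨t, ⟨_, n, rfl⟩⟩, ht⟩ := hloc.surj y
  refine ⟨n, resSec M hT.ge (show Γ(M, hU.fromSpec ''ᵁ ⊤) from t), ?_⟩
  have h1 : resSec M (hD.trans_le ((X.basicOpen_le f).trans hT.ge))
      (show Γ(M, hU.fromSpec ''ᵁ ⊤) from t) =
      X.presheaf.map (homOfLE (image_basicOpen_le hU f)).op (f ^ n) • resSec M hD.le x :=
    ht.symm.trans (restrict_fromSpec_smul hU M (image_basicOpen_le hU f) (f ^ n) y)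
  have h2 := congrArg (resSec M hD.ge) h1
  rw [resSec_resSec, resSec_smul, resRing_resRing, resSec_resSec, resSec_self] at h2
  rw [resSec_resSec]
  exact h2

include hU in
/-- A section vanishing on a basic open of an affine open is killed by a power. -/
theorem exists_pow_smul_eq_zero (f : Γ(X, U)) (t : Γ(M, U))
    (ht : resSec M (X.basicOpen_le f) t = 0) : ∃ n : ℕ, f ^ n • t = 0 := by
  have hloc := isLocalizing_restrict hU M f
  have hD : hU.fromSpec ''ᵁ PrimeSpectrum.basicOpen f = X.basicOpen f :=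
    hU.fromSpec_image_basicOpen f
  have hT := fromSpec_image_top_eq hU
  let t' : Γ(M.restrict hU.fromSpec, ⊤) := resSec M hT.le t
  have h0 : ((modulesSpecToSheaf.obj (M.restrict hU.fromSpec)).obj.map
      (PrimeSpectrum.basicOpen f).leTop.op).hom t' = 0 := by
    show resSec M (hD.trans_le ((X.basicOpen_le f).trans hT.ge)) (resSec M hT.le t) = 0
    rw [resSec_resSec, ← resSec_resSec M (X.basicOpen_le f) hD.le, ht, map_zero]
  obtain ⟨⟨_, n, rfl⟩, hn⟩ := (IsLocalizedModule.eq_zero_iff (.powers f) _).mp h0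
  refine ⟨n, ?_⟩
  have h1 : X.presheaf.map (homOfLE hT.le).op (f ^ n) • resSec M hT.le t = 0 :=
    (restrict_fromSpec_smul hU M hT.le (f ^ n) t').symm.trans hn
  have h2 := congrArg (resSec M hT.ge) h1
  rwa [resSec_smul, resRing_resRing, resRing_self, resSec_resSec, resSec_self, map_zero] at h2

end Localising

/-- Sections over the basic opens of `U` are localisations of the sections over `U`. -/
structure Localizes (M : X.Modules) (U : X.Opens) : Prop where
  exists_eq : ∀ (f : Γ(X, U)) (x : Γ(M, X.basicOpen f)), ∃ (n : ℕ) (t : Γ(M, U)),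
    resSec M (X.basicOpen_le f) t = X.presheaf.map (homOfLE (X.basicOpen_le f)).op (f ^ n) • x
  exists_zero : ∀ (f : Γ(X, U)) (t : Γ(M, U)),
    resSec M (X.basicOpen_le f) t = 0 → ∃ n : ℕ, f ^ n • t = 0

theorem localizes_of_isQuasicoherent {U : X.Opens} (hU : IsAffineOpen U) (M : X.Modules)
    [M.IsQuasicoherent] : Localizes M U :=
  ⟨exists_pow_smul_eq hU M, exists_pow_smul_eq_zero hU M⟩

theorem localizes_of_isInvertible {U : X.Opens} (hU : IsAffineOpen U) {M : X.Modules}
    (hM : Scheme.Modules.IsInvertible M) : Localizes M U :=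
  have := isQuasicoherent_of_isInvertible hM
  localizes_of_isQuasicoherent hU M

/-- Localising passes to smaller affine opens. -/
theorem localizes_of_le {U W : X.Opens} (hU : IsAffineOpen U) (hW : IsAffineOpen W) (h : W ≤ U)
    (M : X.Modules) [(M.restrict hU.fromSpec).IsQuasicoherent] : Localizes M W := by
  let g : Spec Γ(X, W) ⟶ Spec Γ(X, U) := Spec.map (X.presheaf.map (homOfLE h).op)
  have hg : g ≫ hU.fromSpec = hW.fromSpec := hU.map_fromSpec hW _
  have : IsOpenImmersion g := by
    have : IsOpenImmersion (g ≫ hU.fromSpec) := hg ▸ inferInstance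
    exact IsOpenImmersion.of_comp g hU.fromSpec
  have : (M.restrict hW.fromSpec).IsQuasicoherent :=
    (SheafOfModules.isQuasicoherent (Spec Γ(X, W)).ringCatSheaf).prop_of_iso
      ((Scheme.Modules.restrictFunctorCongr hg.symm).app M ≪≫
        (Scheme.Modules.restrictFunctorComp g hU.fromSpec).app M).symm
      (inferInstance : ((Scheme.Modules.restrictFunctor g).obj
        ((Scheme.Modules.restrictFunctor hU.fromSpec).obj M)).IsQuasicoherent)
  exact ⟨exists_pow_smul_eq hW M, exists_pow_smul_eq_zero hW M⟩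

theorem isUnit_resRing {U W : X.Opens} {f : Γ(X, U)} (h : W ≤ X.basicOpen f) :
    IsUnit (X.presheaf.map (homOfLE (h.trans (X.basicOpen_le f))).op f) := by
  rw [← resRing_resRing (X.basicOpen_le f) h f]
  exact (X.toRingedSpace.isUnit_res_basicOpen f).map _

theorem smul_pow_cancel {M : X.Modules} {U W : X.Opens} {f : Γ(X, U)} (h : W ≤ X.basicOpen f)
    {n : ℕ} {a b : Γ(M, W)}
    (he : X.presheaf.map (homOfLE (h.trans (X.basicOpen_le f))).op (f ^ n) • a =
      X.presheaf.map (homOfLE (h.trans (X.basicOpen_le f))).op (f ^ n) • b) : a = b := by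
  rw [map_pow] at he
  exact ((isUnit_resRing h).pow n).smul_left_cancel.mp he

theorem Localizes.exists_eq_of_le {M : X.Modules} {U V : X.Opens} (hM : Localizes M U)
    (f : Γ(X, U)) (h : X.basicOpen f ≤ V) (x : Γ(M, V)) : ∃ (n : ℕ) (t : Γ(M, U)),
    resSec M (X.basicOpen_le f) t =
      X.presheaf.map (homOfLE (X.basicOpen_le f)).op (f ^ n) • resSec M h x :=
  hM.exists_eq f _

theorem exists_basicOpen_cover {U V : X.Opens} (hU : IsAffineOpen U) (hV : V ≤ U) :
    V ≤ ⨆ f : {f : Γ(X, U) // X.basicOpen f ≤ V}, X.basicOpen f.1 := fun x hx => by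
  obtain ⟨f, hf, hxf⟩ := hU.exists_basicOpen_le ⟨x, hx⟩ (hV hx)
  exact TopologicalSpace.Opens.mem_iSup.mpr ⟨⟨f, hf⟩, hxf⟩

/-- A morphism out of a module localising on an affine open is determined on global sections. -/
theorem HomOn.ext_of_localizes {M N : X.Modules} {U U' : X.Opens} (hU : IsAffineOpen U)
    (hM : Localizes M U) (hU' : U' ≤ U) {φ ψ : HomOn M N U'}
    (h : ∀ t, φ.app U' le_rfl (resSec M hU' t) = ψ.app U' le_rfl (resSec M hU' t)) : φ = ψ :=
  HomOn.ext' fun V hV x => sec_ext N (fun f : {f : Γ(X, U) // X.basicOpen f ≤ V} => X.basicOpen f.1)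
    (fun f => f.2) (exists_basicOpen_cover hU (hV.trans hU')) fun f => by
      obtain ⟨n, t, ht⟩ := hM.exists_eq_of_le f.1 f.2 x
      have key : ∀ χ : HomOn M N U',
          X.presheaf.map (homOfLE (X.basicOpen_le f.1)).op (f.1 ^ n) •
            resSec N f.2 (χ.app V hV x) =
            resSec N (f.2.trans hV) (χ.app U' le_rfl (resSec M hU' t)) := fun χ => by
        rw [← χ.natural, ← χ.natural]
        simp only [resSec_resSec, ht, map_smul]
      refine smul_pow_cancel le_rfl (n := n) ?_
      rw [key φ, key ψ, h]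

section AffineHom

variable {M N : X.Modules} {U U' : X.Opens} (hU : IsAffineOpen U) (hM : Localizes M U)
  (hU' : U' ≤ U) (L : Γ(M, U) →+ Γ(N, U'))
  (hL : ∀ (r : Γ(X, U)) (t : Γ(M, U)), L (r • t) = X.presheaf.map (homOfLE hU').op r • L t)

include hU hM hL in
theorem exists_affineHom_app {V : X.Opens} (hV : V ≤ U') (x : Γ(M, V)) :
    ∃ y : Γ(N, V), ∀ (f : Γ(X, U)) (h : X.basicOpen f ≤ V) (n : ℕ) (t : Γ(M, U)),
      resSec M (X.basicOpen_le f) t =
        X.presheaf.map (homOfLE (X.basicOpen_le f)).op (f ^ n) • resSec M h x →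
      X.presheaf.map (homOfLE (X.basicOpen_le f)).op (f ^ n) • resSec N h y =
        resSec N (h.trans hV) (L t) := by
  let ι : Type u := {p : Γ(X, U) × ℕ × Γ(M, U) // ∃ h : X.basicOpen p.1 ≤ V,
    resSec M (X.basicOpen_le p.1) p.2.2 =
      X.presheaf.map (homOfLE (X.basicOpen_le p.1)).op (p.1 ^ p.2.1) • resSec M h x}
  have hle : ∀ p : ι, X.basicOpen p.1.1 ≤ V := fun p => p.2.1
  have hy : ∀ p : ι, ∃ y, X.presheaf.map (homOfLE (X.basicOpen_le p.1.1)).op (p.1.1 ^ p.1.2.1) • y =
      resSec N ((hle p).trans hV) (L p.1.2.2) := fun p => by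
    obtain ⟨c, hc⟩ := (isUnit_resRing (f := p.1.1) le_rfl).pow p.1.2.1 |>.exists_right_inv
    exact ⟨c • resSec N ((hle p).trans hV) (L p.1.2.2),
      by rw [map_pow, ← mul_smul, hc, one_smul]⟩
  choose y hy using hy
  have hcov : V ≤ ⨆ p : ι, X.basicOpen p.1.1 := fun z hz => by
    obtain ⟨f, hf, hzf⟩ := hU.exists_basicOpen_le ⟨z, hz⟩ (hU' (hV hz))
    obtain ⟨n, t, ht⟩ := hM.exists_eq_of_le f hf x
    exact TopologicalSpace.Opens.mem_iSup.mpr ⟨⟨⟨f, n, t⟩, hf, ht⟩, hzf⟩
  obtain ⟨z, hz⟩ := exists_sec_glue N (fun p : ι => X.basicOpen p.1.1) hle hcov y fun p q => by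
    obtain ⟨⟨f, n, t⟩, hf, ht⟩ := p
    obtain ⟨⟨g, m, s⟩, hg, hs⟩ := q
    have hp := hy ⟨⟨f, n, t⟩, hf, ht⟩
    have hq := hy ⟨⟨g, m, s⟩, hg, hs⟩
    generalize y ⟨⟨f, n, t⟩, hf, ht⟩ = a at hp ⊢
    generalize y ⟨⟨g, m, s⟩, hg, hs⟩ = b at hq ⊢
    dsimp only at hp hq ht hs ⊢
    have hfg : X.basicOpen f ⊓ X.basicOpen g = X.basicOpen (f * g) := (X.basicOpen_mul f g).symm
    have h0 : resSec M (X.basicOpen_le (f * g)) (g ^ m • t - f ^ n • s) = 0 := by
      rw [map_sub, resSec_smul, resSec_smul,
        ← resSec_resSec M (X.basicOpen_le f) (hfg.ge.trans inf_le_left),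
        ← resSec_resSec M (X.basicOpen_le g) (hfg.ge.trans inf_le_right), ht, hs]
      simp only [resSec_smul, resSec_resSec, resRing_resRing, ← mul_smul]
      exact sub_eq_zero.mpr (congrArg (· • _) (mul_comm _ _))
    obtain ⟨e, he⟩ := hM.exists_zero _ _ h0
    have h1 := congrArg (fun w => resSec N ((hfg.ge.trans (inf_le_left.trans hf)).trans hV) (L w)) he
    simp only [map_zero, hL, resSec_smul, resRing_resRing] at h1
    have h2 : resSec N ((hfg.ge.trans (inf_le_left.trans hf)).trans hV)
        (L (g ^ m • t - f ^ n • s)) = 0 :=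
      smul_pow_cancel (f := f * g) (n := e) le_rfl (h1.trans (smul_zero _).symm)
    simp only [map_sub, hL, resSec_smul, resRing_resRing] at h2
    have h3 : X.basicOpen f ⊓ X.basicOpen g ≤ X.basicOpen (f * g) := hfg.le
    have h4 := congrArg (resSec N h3) (sub_eq_zero.mp h2)
    simp only [resSec_smul, resSec_resSec, resRing_resRing] at h4
    refine smul_pow_cancel (f := g) inf_le_right (n := m) (smul_pow_cancel (f := f) inf_le_left
      (n := n) ?_)
    have hp' := congrArg (resSec N (inf_le_left : _ ⊓ X.basicOpen g ≤ X.basicOpen f)) hp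
    have hq' := congrArg (resSec N (inf_le_right : X.basicOpen f ⊓ _ ≤ X.basicOpen g)) hq
    simp only [resSec_smul, resSec_resSec, resRing_resRing] at hp' hq'
    rw [smul_comm, hp', hq', h4]
  refine ⟨z, fun f h n t ht => ?_⟩
  have hz' : resSec N h z = y ⟨⟨f, n, t⟩, h, ht⟩ := hz ⟨⟨f, n, t⟩, h, ht⟩
  rw [hz']
  exact hy ⟨⟨f, n, t⟩, h, ht⟩

/-- The value of an extended morphism. -/
def affineFun {V : X.Opens} (hV : V ≤ U') (x : Γ(M, V)) : Γ(N, V) :=
  (exists_affineHom_app hU hM hU' L hL hV x).choose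

theorem affineFun_spec {V : X.Opens} (hV : V ≤ U') (x : Γ(M, V)) (f : Γ(X, U))
    (h : X.basicOpen f ≤ V) (n : ℕ) (t : Γ(M, U))
    (ht : resSec M (X.basicOpen_le f) t =
      X.presheaf.map (homOfLE (X.basicOpen_le f)).op (f ^ n) • resSec M h x) :
    X.presheaf.map (homOfLE (X.basicOpen_le f)).op (f ^ n) •
      resSec N h (affineFun hU hM hU' L hL hV x) = resSec N (h.trans hV) (L t) :=
  (exists_affineHom_app hU hM hU' L hL hV x).choose_spec f h n t ht

theorem affineFun_unique {V : X.Opens} (hV : V ≤ U') (x : Γ(M, V)) (y : Γ(N, V))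
    (hy : ∀ (f : Γ(X, U)) (h : X.basicOpen f ≤ V), ∃ (n : ℕ) (t : Γ(M, U)),
      resSec M (X.basicOpen_le f) t =
        X.presheaf.map (homOfLE (X.basicOpen_le f)).op (f ^ n) • resSec M h x ∧
      X.presheaf.map (homOfLE (X.basicOpen_le f)).op (f ^ n) • resSec N h y =
        resSec N (h.trans hV) (L t)) :
    affineFun hU hM hU' L hL hV x = y :=
  sec_ext N (fun f : {f : Γ(X, U) // X.basicOpen f ≤ V} => X.basicOpen f.1) (fun f => f.2)
    (exists_basicOpen_cover hU (hV.trans hU')) fun f => by
      obtain ⟨n, t, ht, hy⟩ := hy f.1 f.2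
      exact smul_pow_cancel (f := f.1) le_rfl
        ((affineFun_spec hU hM hU' L hL hV x f.1 f.2 n t ht).trans hy.symm)

theorem affineFun_res {V : X.Opens} (hV : V ≤ U') (t : Γ(M, U)) :
    affineFun hU hM hU' L hL hV (resSec M (hV.trans hU') t) = resSec N hV (L t) :=
  affineFun_unique hU hM hU' L hL hV _ _ fun f h => ⟨0, t,
    by rw [pow_zero, map_one, one_smul, resSec_resSec],
    by rw [pow_zero, map_one, one_smul, resSec_resSec]⟩

theorem affineFun_natural {V W : X.Opens} (hV : V ≤ U') (hW : W ≤ V) (x : Γ(M, V)) :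
    affineFun hU hM hU' L hL (hW.trans hV) (resSec M hW x) =
      resSec N hW (affineFun hU hM hU' L hL hV x) :=
  affineFun_unique hU hM hU' L hL _ _ _ fun f h => by
    obtain ⟨n, t, ht⟩ := hM.exists_eq_of_le f (h.trans hW) x
    exact ⟨n, t, by rw [resSec_resSec]; exact ht,
      by rw [resSec_resSec]; exact affineFun_spec hU hM hU' L hL hV x f _ n t ht⟩

theorem affineFun_add {V : X.Opens} (hV : V ≤ U') (x x' : Γ(M, V)) :
    affineFun hU hM hU' L hL hV (x + x') =
      affineFun hU hM hU' L hL hV x + affineFun hU hM hU' L hL hV x' :=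
  affineFun_unique hU hM hU' L hL hV _ _ fun f h => by
    obtain ⟨n, t, ht⟩ := hM.exists_eq_of_le f h x
    obtain ⟨n', t', ht'⟩ := hM.exists_eq_of_le f h x'
    refine ⟨n + n', f ^ n' • t + f ^ n • t', ?_, ?_⟩
    · simp only [map_add, resSec_smul, ht, ht', smul_add, ← mul_smul, ← map_mul, pow_add,
        mul_comm]
    · simp only [map_add, hL, resSec_smul, resRing_resRing, smul_add,
        ← affineFun_spec hU hM hU' L hL hV x f h n t ht,
        ← affineFun_spec hU hM hU' L hL hV x' f h n' t' ht', ← mul_smul, ← map_mul, pow_add,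
        mul_comm]

theorem affineFun_smul {V : X.Opens} (hV : V ≤ U') (r : Γ(X, V)) (x : Γ(M, V)) :
    affineFun hU hM hU' L hL hV (r • x) = r • affineFun hU hM hU' L hL hV x :=
  affineFun_unique hU hM hU' L hL hV _ _ fun f h => by
    obtain ⟨n, t, ht⟩ := hM.exists_eq_of_le f h x
    have hloc := hU.isLocalization_basicOpen f
    obtain ⟨⟨a, _, k, rfl⟩, ha⟩ :=
      IsLocalization.surj (Submonoid.powers f) (X.presheaf.map (homOfLE h).op r)
    replace ha : X.presheaf.map (homOfLE h).op r *
        X.presheaf.map (homOfLE (X.basicOpen_le f)).op (f ^ k) =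
        X.presheaf.map (homOfLE (X.basicOpen_le f)).op a := ha
    refine ⟨k + n, a • t, ?_, ?_⟩
    · simp only [resSec_smul, ht, ← ha, ← mul_smul, map_pow, pow_add, map_mul]
      congr 1
      ring
    · simp only [hL, resSec_smul, resRing_resRing, ← ha,
        ← affineFun_spec hU hM hU' L hL hV x f h n t ht, ← mul_smul, map_pow, pow_add, map_mul]
      congr 1
      ring

/-- A semilinear map on the sections over an affine open extends to a morphism. -/
def affineHom : HomOn M N U' where
  app _V hV :=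
    { toFun := affineFun hU hM hU' L hL hV
      map_add' := affineFun_add hU hM hU' L hL hV
      map_smul' := affineFun_smul hU hM hU' L hL hV }
  natural _ _ hV h x := affineFun_natural hU hM hU' L hL hV h x

theorem affineHom_app_res {V : X.Opens} (hV : V ≤ U') (t : Γ(M, U)) :
    (affineHom hU hM hU' L hL).app V hV (resSec M (hV.trans hU') t) = resSec N hV (L t) :=
  affineFun_res hU hM hU' L hL hV t

end AffineHom

/-- Modules localising on an affine open with equivalent sections are isomorphic there. -/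
def affineIso {M N : X.Modules} {U : X.Opens} (hU : IsAffineOpen U) (hM : Localizes M U)
    (hN : Localizes N U) (e : Γ(M, U) ≃ₗ[Γ(X, U)] Γ(N, U)) : IsoOn M N U where
  hom := affineHom hU hM le_rfl e.toLinearMap.toAddMonoidHom
    fun r t => (e.map_smul r t).trans (by rw [resRing_self]; rfl)
  inv := affineHom hU hN le_rfl e.symm.toLinearMap.toAddMonoidHom
    fun r t => (e.symm.map_smul r t).trans (by rw [resRing_self]; rfl)
  hom_inv := HomOn.ext_of_localizes hU hM le_rfl fun t => by
    rw [HomOn.comp_app, HomOn.id_app, affineHom_app_res, resSec_self, resSec_self]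
    exact (congrArg _ (resSec_self N le_rfl _).symm).trans
      ((affineHom_app_res hU hN le_rfl _ _ le_rfl _).trans
        ((resSec_self M _ _).trans (e.symm_apply_apply t)))
  inv_hom := HomOn.ext_of_localizes hU hN le_rfl fun t => by
    rw [HomOn.comp_app, HomOn.id_app, affineHom_app_res, resSec_self, resSec_self]
    exact (congrArg _ (resSec_self M le_rfl _).symm).trans
      ((affineHom_app_res hU hM le_rfl _ _ le_rfl _).trans
        ((resSec_self N _ _).trans (e.apply_symm_apply t)))

theorem affineIso_app {M N : X.Modules} {U : X.Opens} (hU : IsAffineOpen U) (hM : Localizes M U)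
    (hN : Localizes N U) (e : Γ(M, U) ≃ₗ[Γ(X, U)] Γ(N, U)) (V : X.Opens) (hV : V ≤ U)
    (t : Γ(M, U)) :
    (affineIso hU hM hN e).hom.app V hV (resSec M hV t) = resSec N hV (e t) :=
  affineHom_app_res hU hM le_rfl e.toLinearMap.toAddMonoidHom _ hV t

section Invertible

variable {M : X.Modules} {U : X.Opens} (hU : IsAffineOpen U)

include hU in
/-- A rank one criterion for a generator on a basic open. -/
theorem isGen_of_functional (hM : Localizes M U) (φ : Γ(M, U) →ₗ[Γ(X, U)] Γ(X, U)) (m : Γ(M, U))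
    (h : ∀ p, φ m • p = φ p • m) : IsGen (resSec M (X.basicOpen_le (φ m)) m) := by
  set W := X.basicOpen (φ m)
  have hW : W ≤ U := X.basicOpen_le (φ m)
  obtain ⟨c, hc⟩ := (isUnit_resRing (f := φ m) (le_refl W)).exists_right_inv
  let L : Γ(M, U) →+ Γ(unitMod X, W) :=
    { toFun := fun p => toUnit W (c * X.presheaf.map (homOfLE hW).op (φ p))
      map_zero' := by simp only [map_zero, mul_zero]
      map_add' := fun p q => by simp only [map_add, mul_add] }
  have hL : ∀ (r : Γ(X, U)) (p : Γ(M, U)),
      L (r • p) = X.presheaf.map (homOfLE hW).op r • L p := fun r p => by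
    show toUnit W _ = _ • toUnit W _
    rw [← map_smul (toUnit W), φ.map_smul, smul_eq_mul, smul_eq_mul,
      map_mul (X.presheaf.map (homOfLE hW).op).hom, mul_left_comm]
  have h1 : (affineHom hU hM hW L hL).comp (smulHom (resSec M hW m)) = HomOn.id M W :=
    HomOn.ext_of_localizes hU hM hW fun p => by
      rw [HomOn.comp_app, HomOn.id_app, affineHom_app_res, resSec_self]
      refine (smulHom_app (resSec M hW m) W le_rfl _).trans ?_
      rw [resSec_self, mul_smul, ← resSec_smul, ← h p, resSec_smul, ← mul_smul, mul_comm, hc,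
        one_smul]
  have h2 : (smulHom (resSec M hW m)).comp (affineHom hU hM hW L hL) = HomOn.id _ W := by
    refine HomOn.ext' fun V hV r => ?_
    obtain ⟨r, rfl⟩ := (toUnit V).surjective r
    rw [HomOn.comp_app, HomOn.id_app, smulHom_app, map_smul, resSec_resSec, affineHom_app_res]
    show r • resSec (unitMod X) hV (toUnit W (c * X.presheaf.map (homOfLE hW).op (φ m))) = _
    rw [mul_comm, hc, resSec_toUnit, map_one, ← map_smul, smul_eq_mul, mul_one]
  have := isGen_of_isoOn ({ hom := _, inv := _, hom_inv := h2, inv_hom := h1 } :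
    IsoOn (unitMod X) M W)
  simpa only [smulHom_app, one_smul, resSec_self] using this

include hU in
/-- An affine piece with invertible sections has generators near each of its points. -/
theorem exists_isGen_of_invertible (hM : Localizes M U) [Module.Invertible Γ(X, U) Γ(M, U)]
    {x : X} (hx : x ∈ U) :
    ∃ (φ : Γ(M, U) →ₗ[Γ(X, U)] Γ(X, U)) (m : Γ(M, U)), x ∈ X.basicOpen (φ m) ∧
      IsGen (resSec M (X.basicOpen_le (φ m)) m) := by
  have hsym : ∀ (φ : Γ(M, U) →ₗ[Γ(X, U)] Γ(X, U)) (m p : Γ(M, U)), φ m • p = φ p • m :=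
    fun φ m p => by
      simpa using congrArg (TensorProduct.lid _ _ ∘ φ.rTensor Γ(M, U))
        (Module.Invertible.tmul_comm (R := Γ(X, U)) (m₁ := m) (m₂ := p))
  have hspan : Ideal.span (Set.range fun q : Module.Dual Γ(X, U) Γ(M, U) × Γ(M, U) => q.1 q.2) =
      ⊤ := by
    obtain ⟨z, hz⟩ := (Module.Invertible.bijective (R := Γ(X, U)) (M := Γ(M, U))).2 1
    rw [Ideal.eq_top_iff_one, ← hz]
    clear hz
    induction z using TensorProduct.induction_on with
    | zero => simp
    | tmul φ m => exact Ideal.subset_span ⟨(φ, m), (contractLeft_apply φ m).symm⟩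
    | add a b ha hb => rw [map_add]; exact add_mem ha hb
  obtain ⟨⟨_, ⟨φ, m⟩, rfl⟩, hxf⟩ :=
    TopologicalSpace.Opens.mem_iSup.mp (hU.self_le_iSup_basicOpen_iff.mpr hspan hx)
  exact ⟨φ, m, hxf, isGen_of_functional hU hM φ m (hsym φ m)⟩

end Invertible

section Sections

variable {M : X.Modules} {U : X.Opens} (hU : IsAffineOpen U) (hM : Localizes M U)

include hM in
/-- Restriction to a basic open is a localisation. -/
theorem isLocalizedModule_resSec (f : Γ(X, U)) [Module Γ(X, U) Γ(M, X.basicOpen f)]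
    (hsmul : ∀ (r : Γ(X, U)) (x : Γ(M, X.basicOpen f)),
      r • x = X.presheaf.map (homOfLE (X.basicOpen_le f)).op r • x)
    (L : Γ(M, U) →ₗ[Γ(X, U)] Γ(M, X.basicOpen f))
    (hL : ∀ t, L t = resSec M (X.basicOpen_le f) t) :
    IsLocalizedModule (Submonoid.powers f) L where
  map_units := by
    rintro ⟨_, n, rfl⟩
    rw [Module.End.isUnit_iff]
    obtain ⟨c, hc⟩ := ((isUnit_resRing (f := f) (le_refl _)).pow n).exists_right_inv
    refine ⟨fun a b he => smul_pow_cancel (f := f) (n := n) le_rfl ?_,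
      fun a => ⟨c • a, ?_⟩⟩
    · simpa only [Module.algebraMap_end_apply, hsmul] using he
    · simp only [Module.algebraMap_end_apply, hsmul]
      rw [map_pow, ← mul_smul, hc, one_smul]
  surj x := by
    obtain ⟨n, t, ht⟩ := hM.exists_eq f x
    exact ⟨⟨t, ⟨_, n, rfl⟩⟩, by simp only [Submonoid.smul_def, hsmul, hL, ht]⟩
  exists_of_eq {a b} he := by
    obtain ⟨n, hn⟩ := hM.exists_zero f (a - b) (by rw [map_sub, ← hL, ← hL, he, sub_self])
    refine ⟨⟨_, n, rfl⟩, ?_⟩
    simpa only [Submonoid.smul_def, smul_sub, sub_eq_zero] using hn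

include hU in
/-- The sections of an invertible module on an affine open form an invertible module. -/
theorem invertible_sections (hM : Scheme.Modules.IsInvertible M) :
    Module.Invertible Γ(X, U) Γ(M, U) := by
  classical
  have hloc := localizes_of_isInvertible hU hM
  let R := Γ(X, U)
  let s : Set R := {f | ∃ e : Γ(M, X.basicOpen f), IsGen e}
  have hcov : U ≤ ⨆ f : s, X.basicOpen f.1 := fun x hx => by
    obtain ⟨W, hxW, e, he⟩ := exists_isGen hM x
    obtain ⟨f, hf, hxf⟩ := hU.exists_basicOpen_le ⟨x, hxW⟩ hx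
    exact TopologicalSpace.Opens.mem_iSup.mpr ⟨⟨f, _, he.restrict hf⟩, hxf⟩
  have hs : Ideal.span s = ⊤ := hU.self_le_iSup_basicOpen_iff.mp hcov
  let : ∀ g : s, Module R Γ(M, X.basicOpen g.1) := fun g =>
    Module.compHom _ (algebraMap R Γ(X, X.basicOpen g.1))
  have : ∀ g : s, IsScalarTower R Γ(X, X.basicOpen g.1) Γ(M, X.basicOpen g.1) := fun g =>
    .of_algebraMap_smul fun _ _ => rfl
  have : ∀ g : s, IsLocalization.Away g.1 Γ(X, X.basicOpen g.1) := fun g =>
    hU.isLocalization_basicOpen g.1
  let L : ∀ g : s, Γ(M, U) →ₗ[R] Γ(M, X.basicOpen g.1) := fun g =>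
    { toFun := resSec M (X.basicOpen_le g.1)
      map_add' := map_add _
      map_smul' := fun r x => resSec_smul M (X.basicOpen_le g.1) r x }
  have : ∀ g : s, IsLocalizedModule (Submonoid.powers g.1) (L g) := fun g =>
    isLocalizedModule_resSec hloc g.1 (fun _ _ => rfl) (L g) fun _ => rfl
  have hfp : Module.FinitePresentation R Γ(M, U) := by
    refine Module.FinitePresentation.of_localizationSpan' (Rₚ := fun g : s => Γ(X, X.basicOpen g.1))
      s hs L fun g => ?_
    obtain ⟨e, he⟩ := g.2
    exact .of_equiv he.equiv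
  have hsym : ∀ (φ : Γ(M, U) →ₗ[R] R) (p q : Γ(M, U)), φ p • q = φ q • p := fun φ p q => by
    refine sec_ext M (fun g : s => X.basicOpen g.1) (fun g => X.basicOpen_le g.1) hcov fun g => ?_
    obtain ⟨e, he⟩ := g.2
    obtain ⟨a, ha⟩ := (he _ le_rfl).2 (L g p)
    obtain ⟨b, hb⟩ := (he _ le_rfl).2 (L g q)
    have hφ : ∀ (t : Γ(M, U)) (c : Γ(X, X.basicOpen g.1)), c • e = L g t →
        algebraMap R Γ(X, X.basicOpen g.1) (φ t) =
          c * IsLocalizedModule.map (Submonoid.powers g.1) (L g)
            (Algebra.linearMap R Γ(X, X.basicOpen g.1)) φ e := fun t c hc => by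
      have h := IsLocalizedModule.map_apply (Submonoid.powers g.1) (L g)
        (Algebra.linearMap R Γ(X, X.basicOpen g.1)) φ t
      rw [← hc, IsLocalization.linearMap_compatibleSMul (Submonoid.powers g.1)
        Γ(X, X.basicOpen g.1) Γ(M, X.basicOpen g.1) Γ(X, X.basicOpen g.1) |>.map_smul] at h
      exact h.symm
    simp only [resSec_self] at ha hb
    rw [resSec_smul, resSec_smul]
    show algebraMap R Γ(X, X.basicOpen g.1) (φ p) • L g q =
      algebraMap R Γ(X, X.basicOpen g.1) (φ q) • L g p
    rw [hφ p a ha, hφ q b hb, ← ha, ← hb, ← mul_smul, ← mul_smul]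
    congr 1
    ring
  have hone : (1 : R) ∈ LinearMap.range (contractLeft R Γ(M, U)) := by
    refine (Ideal.eq_top_iff_one (LinearMap.range (contractLeft R Γ(M, U)))).mp
      (hU.self_le_iSup_basicOpen_iff (s := ↑(LinearMap.range (contractLeft R Γ(M, U)))) |>.mp
        ?_ |> fun h => by rwa [Ideal.span_eq] at h)
    intro x hx
    obtain ⟨g, hg⟩ := TopologicalSpace.Opens.mem_iSup.mp (hcov hx)
    obtain ⟨e, he⟩ := g.2
    obtain ⟨n, t, ht⟩ := hloc.exists_eq g.1 e
    obtain ⟨ψ, hψ⟩ : ∃ ψ : Γ(M, X.basicOpen g.1) ≃ₗ[Γ(X, X.basicOpen g.1)]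
        Γ(X, X.basicOpen g.1), ψ e = 1 :=
      ⟨he.equiv.symm, (LinearEquiv.symm_apply_eq _).mpr (one_smul _ e).symm⟩
    obtain ⟨φ, ⟨_, m, rfl⟩, hφ⟩ := Module.FinitePresentation.exists_lift_of_isLocalizedModule
      (Submonoid.powers g.1) (Algebra.linearMap R Γ(X, X.basicOpen g.1))
      ((ψ.toLinearMap.restrictScalars R).comp (L g))
    have h := LinearMap.congr_fun hφ t
    refine TopologicalSpace.Opens.mem_iSup.mpr ⟨⟨φ t, φ ⊗ₜ t, contractLeft_apply φ t⟩, ?_⟩
    have hu : IsUnit (algebraMap R Γ(X, X.basicOpen g.1) (φ t)) := by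
      replace h : algebraMap R Γ(X, X.basicOpen g.1) (φ t) =
          algebraMap R Γ(X, X.basicOpen g.1) (g.1 ^ m) * ψ (L g t) :=
        (h.trans (LinearMap.smul_apply (g.1 ^ m) ((ψ.toLinearMap.restrictScalars R).comp (L g)) t)).trans
          (Algebra.smul_def _ _)
      rw [h, show L g t = algebraMap R Γ(X, X.basicOpen g.1) (g.1 ^ n) • e from ht, map_smul, hψ,
        smul_eq_mul, mul_one, ← map_mul, ← pow_add, map_pow]
      exact ((IsLocalization.Away.algebraMap_isUnit g.1)).pow _
    have h' := (RingedSpace.mem_basicOpen X.toRingedSpace (X.presheaf.map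
      (homOfLE (X.basicOpen_le g.1)).op (φ t)) x hg).mpr (hu.map _)
    exact ((Scheme.basicOpen_res X (φ t) (homOfLE (X.basicOpen_le g.1)).op).le h').2
  obtain ⟨z, hz⟩ := hone
  have key : ∀ w, w = contractLeft R Γ(M, U) w • z := fun w => by
    induction w using TensorProduct.induction_on with
    | zero => rw [map_zero, zero_smul]
    | add a b ha hb => rw [map_add, add_smul, ← ha, ← hb]
    | tmul φ p =>
      conv_lhs => rw [← one_smul R (φ ⊗ₜ[R] p), ← hz]
      rw [contractLeft_apply]
      clear hz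
      induction z using TensorProduct.induction_on with
      | zero => simp only [map_zero, zero_smul, smul_zero]
      | add a b ha hb => rw [map_add, add_smul, smul_add, ha, hb]
      | tmul ψ q =>
        have hd : φ p • ψ = ψ p • φ := LinearMap.ext fun v => by
          simp only [LinearMap.smul_apply, smul_eq_mul]
          have := congrArg φ (hsym ψ p v)
          simp only [map_smul, smul_eq_mul] at this
          rw [this, mul_comm]
        rw [contractLeft_apply, ← TensorProduct.tmul_smul, hsym ψ q p, ← TensorProduct.smul_tmul,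
          ← hd, TensorProduct.smul_tmul']
  refine ⟨fun w w' h => ?_, fun r => ⟨r • z, by rw [map_smul, hz, smul_eq_mul, mul_one]⟩⟩
  rw [key w, key w', h]

end Sections

section AffineModule

variable {U : X.Opens} (hU : IsAffineOpen U) (P : ModuleCat.{u} Γ(X, U))

/-- The module associated to a module over the functions on an affine open, pushed forward. -/
def affineModule : X.Modules := (Scheme.Modules.pushforward hU.fromSpec).obj (tilde P)

theorem localizes_affineModule : Localizes (affineModule hU P) U :=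
  have : ((affineModule hU P).restrict hU.fromSpec).IsQuasicoherent :=
    (SheafOfModules.isQuasicoherent (Spec Γ(X, U)).ringCatSheaf).prop_of_iso
      ((Scheme.Modules.restrictFunctorAdjCounitIso hU.fromSpec).app (tilde P)).symm
      (show (tilde P).IsQuasicoherent from inferInstance)
  ⟨exists_pow_smul_eq hU _, exists_pow_smul_eq_zero hU _⟩

theorem localizes_affineModule_of_le {W : X.Opens} (hW : IsAffineOpen W) (h : W ≤ U) :
    Localizes (affineModule hU P) W :=
  have : ((affineModule hU P).restrict hU.fromSpec).IsQuasicoherent :=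
    (SheafOfModules.isQuasicoherent (Spec Γ(X, U)).ringCatSheaf).prop_of_iso
      ((Scheme.Modules.restrictFunctorAdjCounitIso hU.fromSpec).app (tilde P)).symm
      (show (tilde P).IsQuasicoherent from inferInstance)
  localizes_of_le hU hW h _

theorem fromSpec_app_self_res (r : Γ(X, U)) :
    hU.fromSpec.app U r = (Spec Γ(X, U)).presheaf.map (hU.fromSpec ⁻¹ᵁ U).leTop.op
      ((Scheme.ΓSpecIso Γ(X, U)).inv r) := by
  rw [hU.fromSpec_app_self, CommRingCat.comp_apply]
  rfl

theorem affineModule_smul (r : Γ(X, U)) (x : Γ(tilde P, hU.fromSpec ⁻¹ᵁ U)) :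
    r • (show Γ(affineModule hU P, U) from x) = (show Γ(affineModule hU P, U) from r • x) := by
  show (show Γ(tilde P, hU.fromSpec ⁻¹ᵁ U) from hU.fromSpec.app U r • x) = _
  rw [fromSpec_app_self_res]
  rfl

/-- The sections on the affine open recover the module. -/
def affineModuleSec : P ≃ₗ[Γ(X, U)] Γ(affineModule hU P, U) :=
  LinearEquiv.ofBijective (M := P) (M₂ := Γ(affineModule hU P, U))
    { toFun := fun p => (show Γ(affineModule hU P, U) from
        (tilde.toOpen P (hU.fromSpec ⁻¹ᵁ U)).hom p)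
      map_add' := fun p q => map_add (tilde.toOpen P (hU.fromSpec ⁻¹ᵁ U)).hom p q
      map_smul' := fun r p => by
        refine Eq.trans ?_ (affineModule_smul hU P r _).symm
        show (tilde.toOpen P (hU.fromSpec ⁻¹ᵁ U)).hom.toFun (r • p) = _
        exact (tilde.toOpen P (hU.fromSpec ⁻¹ᵁ U)).hom.map_smul' r p }
    (by
      show Function.Bijective (tilde.toOpen P (hU.fromSpec ⁻¹ᵁ U)).hom
      rw [hU.fromSpec_preimage_self]
      exact ConcreteCategory.bijective_of_isIso _)

theorem isInvertible_affineModule_restrict [Module.Invertible Γ(X, U) P] {x : X} (hx : x ∈ U) :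
    ∃ W : X.Opens, x ∈ W ∧ ∃ s : Γ(affineModule hU P, W), IsGen s := by
  have := Module.Invertible.congr (affineModuleSec hU P)
  obtain ⟨φ, m, hxm, hm⟩ := exists_isGen_of_invertible hU (localizes_affineModule hU P) hx
  exact ⟨_, hxm, _, hm⟩

end AffineModule

end Fermat.Agent.RelPic
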