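import Mathlib
import Fermat.Prelude.Def_AlgebraicGeometry_RelativePicardFunctor

/-!
# Morphisms of modules on an open subset, described on sections

`HomOn M N U` is a compatible family of linear maps `Γ(M, V) → Γ(N, V)` for the opens `V ≤ U`.
It avoids all iterated restrictions.
-/

set_option autoImplicit false

noncomputable section

universe u

open CategoryTheory CategoryTheory.Limits AlgebraicGeometry TopologicalSpace Opposite

namespace Fermat.Agent.RelPic

variable {X : Scheme.{u}}

/-- The restriction of sections of a module. -/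
def resSec (M : X.Modules) {V W : X.Opens} (h : W ≤ V) : Γ(M, V) →+ Γ(M, W) :=
  (M.presheaf.map (homOfLE h).op).hom

theorem resSec_smul (M : X.Modules) {V W : X.Opens} (h : W ≤ V) (r : Γ(X, V)) (x : Γ(M, V)) :
    resSec M h (r • x) = X.presheaf.map (homOfLE h).op r • resSec M h x :=
  M.map_smul (homOfLE h) r x

theorem resSec_resSec (M : X.Modules) {V W Z : X.Opens} (h : W ≤ V) (h' : Z ≤ W) (x : Γ(M, V)) :
    resSec M h' (resSec M h x) = resSec M (h'.trans h) x := by
  show (M.presheaf.map (homOfLE h).op ≫ M.presheaf.map (homOfLE h').op).hom x = _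
  rw [← M.presheaf.map_comp]
  rfl

theorem resSec_self (M : X.Modules) {V : X.Opens} (h : V ≤ V) (x : Γ(M, V)) : resSec M h x = x := by
  show (M.presheaf.map (𝟙 (op V))).hom x = x
  rw [M.presheaf.map_id]
  rfl

theorem app_resSec {M N : X.Modules} (φ : M ⟶ N) {V W : X.Opens} (h : W ≤ V) (x : Γ(M, V)) :
    φ.app W (resSec M h x) = resSec N h (φ.app V x) :=
  congr($(φ.mapPresheaf.naturality (homOfLE h).op).hom x)

/-- Sections agreeing on a cover are equal. -/
theorem sec_ext (M : X.Modules) {V : X.Opens} {ι : Type*} (W : ι → X.Opens)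
    (hW : ∀ i, W i ≤ V) (hcov : V ≤ ⨆ i, W i) {s t : Γ(M, V)}
    (h : ∀ i, resSec M (hW i) s = resSec M (hW i) t) : s = t :=
  TopCat.Sheaf.eq_of_locally_eq' ⟨_, M.isSheaf⟩ W V (fun i => homOfLE (hW i)) hcov s t h

/-- Compatible sections on a cover glue. -/
theorem exists_sec_glue (M : X.Modules) {V : X.Opens} {ι : Type*} (W : ι → X.Opens)
    (hW : ∀ i, W i ≤ V) (hcov : V ≤ ⨆ i, W i) (s : ∀ i, Γ(M, W i))
    (h : ∀ i j, resSec M (inf_le_left : W i ⊓ W j ≤ W i) (s i) =
      resSec M (inf_le_right : W i ⊓ W j ≤ W j) (s j)) :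
    ∃ t : Γ(M, V), ∀ i, resSec M (hW i) t = s i := by
  obtain ⟨t, ht, -⟩ := TopCat.Sheaf.existsUnique_gluing' ⟨_, M.isSheaf⟩ W V
    (fun i => homOfLE (hW i)) hcov s h
  exact ⟨t, ht⟩

/-- A morphism of modules from its values on sections. -/
def homOfApp {M N : X.Modules} (app : ∀ V, Γ(M, V) →ₗ[Γ(X, V)] Γ(N, V))
    (nat : ∀ (V W : X.Opens) (h : W ≤ V) (x : Γ(M, V)),
      app W (resSec M h x) = resSec N h (app V x)) : M ⟶ N :=
  ⟨PresheafOfModules.homMk
    { app := fun V => AddCommGrpCat.ofHom (app V.unop).toAddMonoidHom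
      naturality := fun V W i => by
        obtain ⟨i⟩ := i
        ext x
        exact nat _ _ (leOfHom i) x }
    fun V r x => (app V.unop).map_smul r x⟩

/-- A morphism of modules on an open subset, given on all smaller opens. -/
@[ext]
structure HomOn (M N : X.Modules) (U : X.Opens) where
  /-- The map on sections over a smaller open. -/
  app : ∀ V : X.Opens, V ≤ U → (Γ(M, V) →ₗ[Γ(X, V)] Γ(N, V))
  natural : ∀ (V W : X.Opens) (hV : V ≤ U) (h : W ≤ V) (x : Γ(M, V)),
    app W (h.trans hV) (resSec M h x) = resSec N h (app V hV x)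

namespace HomOn

variable {M N P : X.Modules} {U U' : X.Opens}

/-- The identity. -/
def id (M : X.Modules) (U : X.Opens) : HomOn M M U where
  app _ _ := LinearMap.id
  natural _ _ _ _ _ := rfl

/-- Composition. -/
def comp (φ : HomOn M N U) (ψ : HomOn N P U) : HomOn M P U where
  app V hV := (ψ.app V hV).comp (φ.app V hV)
  natural V W hV h x := by
    simp only [LinearMap.comp_apply, φ.natural V W hV h x, ψ.natural V W hV h]

/-- Restriction to a smaller open. -/
def restrict (φ : HomOn M N U) (h : U' ≤ U) : HomOn M N U' where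
  app V hV := φ.app V (hV.trans h)
  natural V W hV h' x := φ.natural V W (hV.trans h) h' x

@[simp] theorem id_app (V : X.Opens) (hV : V ≤ U) (x : Γ(M, V)) : (id M U).app V hV x = x := rfl

@[simp] theorem comp_app (φ : HomOn M N U) (ψ : HomOn N P U) (V : X.Opens) (hV : V ≤ U)
    (x : Γ(M, V)) : (φ.comp ψ).app V hV x = ψ.app V hV (φ.app V hV x) := rfl

@[simp] theorem restrict_app (φ : HomOn M N U) (h : U' ≤ U) (V : X.Opens) (hV : V ≤ U')
    (x : Γ(M, V)) : (φ.restrict h).app V hV x = φ.app V (hV.trans h) x := rfl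

theorem ext' {φ ψ : HomOn M N U} (h : ∀ V hV x, φ.app V hV x = ψ.app V hV x) : φ = ψ :=
  HomOn.ext (funext fun V => funext fun hV => LinearMap.ext fun x => h V hV x)

/-- Two morphisms agreeing on a cover are equal. -/
theorem ext_of_cover {ι : Type*} (W : ι → X.Opens) (hW : ∀ i, W i ≤ U) (hcov : U ≤ ⨆ i, W i)
    {φ ψ : HomOn M N U} (h : ∀ i, φ.restrict (hW i) = ψ.restrict (hW i)) : φ = ψ :=
  ext' fun V hV x => sec_ext N (fun i => V ⊓ W i) (fun i => inf_le_left)
    (by rw [← inf_iSup_eq]; exact le_inf le_rfl (hV.trans hcov)) fun i => by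
      rw [← φ.natural, ← ψ.natural]
      exact LinearMap.congr_fun (congrFun (congrFun (congrArg app (h i)) (V ⊓ W i)) inf_le_right) _

/-- A morphism of modules on every open. -/
def ofHom (φ : M ⟶ N) (U : X.Opens) : HomOn M N U where
  app V _ := { toFun := φ.app V, map_add' := map_add _, map_smul' := φ.app_smul }
  natural _ _ _ h x := app_resSec φ h x

@[simp] theorem ofHom_app (φ : M ⟶ N) (V : X.Opens) (hV : V ≤ U) (x : Γ(M, V)) :
    (ofHom φ U).app V hV x = φ.app V x := rfl

/-- A morphism on the whole space. -/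
def toHom (φ : HomOn M N ⊤) : M ⟶ N :=
  homOfApp (fun V => φ.app V le_top) fun V W h x => φ.natural V W le_top h x

@[simp] theorem toHom_app (φ : HomOn M N ⊤) (V : X.Opens) (x : Γ(M, V)) :
    φ.toHom.app V x = φ.app V le_top x := rfl

section Glue

variable {ι : Type*} (W : ι → X.Opens) (hW : ∀ i, W i ≤ U) (hcov : U ≤ ⨆ i, W i)
  (φ : ∀ i, HomOn M N (W i))
  (hφ : ∀ i j, (φ i).restrict (inf_le_left : W i ⊓ W j ≤ W i) =
    (φ j).restrict (inf_le_right : W i ⊓ W j ≤ W j))

include hcov hφ in
theorem exists_glue_app {V : X.Opens} (hV : V ≤ U) (x : Γ(M, V)) :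
    ∃ y : Γ(N, V), ∀ i, resSec N (inf_le_left : V ⊓ W i ≤ V) y =
      (φ i).app (V ⊓ W i) inf_le_right (resSec M inf_le_left x) := by
  refine exists_sec_glue N (fun i => V ⊓ W i) (fun i => inf_le_left)
    (by rw [← inf_iSup_eq]; exact le_inf le_rfl (hV.trans hcov)) _ fun i j => ?_
  rw [← (φ i).natural, ← (φ j).natural, resSec_resSec, resSec_resSec]
  exact LinearMap.congr_fun (congrFun (congrFun (congrArg app (hφ i j)) _)
    (le_inf (inf_le_left.trans inf_le_right) (inf_le_right.trans inf_le_right))) _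

/-- The value of a glued morphism. -/
def glueFun {V : X.Opens} (hV : V ≤ U) (x : Γ(M, V)) : Γ(N, V) :=
  (exists_glue_app W hcov φ hφ hV x).choose

theorem resSec_glueFun {V : X.Opens} (hV : V ≤ U) (x : Γ(M, V)) (i : ι) :
    resSec N (inf_le_left : V ⊓ W i ≤ V) (glueFun W hcov φ hφ hV x) =
      (φ i).app (V ⊓ W i) inf_le_right (resSec M inf_le_left x) :=
  (exists_glue_app W hcov φ hφ hV x).choose_spec i

include hcov in
theorem eq_of_resSec_eq {V : X.Opens} (hV : V ≤ U) {y z : Γ(N, V)}
    (h : ∀ i, resSec N (inf_le_left : V ⊓ W i ≤ V) y = resSec N inf_le_left z) : y = z :=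
  sec_ext N (fun i => V ⊓ W i) (fun i => inf_le_left)
    (by rw [← inf_iSup_eq]; exact le_inf le_rfl (hV.trans hcov)) h

/-- Morphisms on the members of a cover agreeing on overlaps glue. -/
def glue : HomOn M N U where
  app V hV :=
    { toFun := glueFun W hcov φ hφ hV
      map_add' := fun x y => eq_of_resSec_eq W hcov hV fun i => by
        simp only [map_add, resSec_glueFun]
      map_smul' := fun r x => eq_of_resSec_eq W hcov hV fun i => by
        simp only [RingHom.id_apply, resSec_smul, resSec_glueFun, map_smul] }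
  natural V W' hV h x := eq_of_resSec_eq W hcov (h.trans hV) fun i => by
    show resSec N _ (glueFun W hcov φ hφ (h.trans hV) (resSec M h x)) = _
    rw [resSec_glueFun, resSec_resSec, resSec_resSec]
    show _ = resSec N _ (glueFun W hcov φ hφ hV x)
    rw [← resSec_resSec N (inf_le_left : V ⊓ W i ≤ V) (inf_le_inf_right _ h : W' ⊓ W i ≤ V ⊓ W i),
      resSec_glueFun, ← (φ i).natural, resSec_resSec]

theorem glue_restrict (i : ι) : (glue W hcov φ hφ).restrict (hW i) = φ i :=
  ext' fun V hV x => eq_of_resSec_eq W hcov (hV.trans (hW i)) fun j => by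
    show resSec N _ (glueFun W hcov φ hφ (hV.trans (hW i)) x) = _
    rw [resSec_glueFun, ← (φ i).natural]
    exact LinearMap.congr_fun (congrFun (congrFun (congrArg app (hφ j i)) (V ⊓ W j))
      (le_inf inf_le_right (inf_le_left.trans hV))) _

end Glue

end HomOn

/-- An isomorphism of modules on an open subset. -/
@[ext]
structure IsoOn (M N : X.Modules) (U : X.Opens) where
  /-- The morphism. -/
  hom : HomOn M N U
  /-- The inverse. -/
  inv : HomOn N M U
  hom_inv : hom.comp inv = HomOn.id M U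
  inv_hom : inv.comp hom = HomOn.id N U

namespace IsoOn

variable {M N P : X.Modules} {U U' : X.Opens}

theorem inv_hom_app (e : IsoOn M N U) (V : X.Opens) (hV : V ≤ U) (x : Γ(M, V)) :
    e.inv.app V hV (e.hom.app V hV x) = x :=
  LinearMap.congr_fun (congrFun (congrFun (congrArg HomOn.app e.hom_inv) V) hV) x

theorem hom_inv_app (e : IsoOn M N U) (V : X.Opens) (hV : V ≤ U) (x : Γ(N, V)) :
    e.hom.app V hV (e.inv.app V hV x) = x :=
  LinearMap.congr_fun (congrFun (congrFun (congrArg HomOn.app e.inv_hom) V) hV) x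

theorem ext_hom {e e' : IsoOn M N U} (h : e.hom = e'.hom) : e = e' := by
  refine IsoOn.ext h (HomOn.ext' fun V hV x => ?_)
  calc e.inv.app V hV x = e'.inv.app V hV (e'.hom.app V hV (e.inv.app V hV x)) :=
        (e'.inv_hom_app V hV _).symm
    _ = _ := by rw [← h, e.hom_inv_app]

/-- The identity. -/
def refl (M : X.Modules) (U : X.Opens) : IsoOn M M U :=
  ⟨HomOn.id M U, HomOn.id M U, rfl, rfl⟩

/-- The inverse. -/
def symm (e : IsoOn M N U) : IsoOn N M U := ⟨e.inv, e.hom, e.inv_hom, e.hom_inv⟩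

/-- Composition. -/
def trans (e : IsoOn M N U) (e' : IsoOn N P U) : IsoOn M P U where
  hom := e.hom.comp e'.hom
  inv := e'.inv.comp e.inv
  hom_inv := HomOn.ext' fun V hV x => by simp [e.inv_hom_app, e'.inv_hom_app]
  inv_hom := HomOn.ext' fun V hV x => by simp [e.hom_inv_app, e'.hom_inv_app]

/-- Restriction to a smaller open. -/
def restrict (e : IsoOn M N U) (h : U' ≤ U) : IsoOn M N U' where
  hom := e.hom.restrict h
  inv := e.inv.restrict h
  hom_inv := HomOn.ext' fun V _hV x => e.inv_hom_app V _ x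
  inv_hom := HomOn.ext' fun V _hV x => e.hom_inv_app V _ x

/-- The linear equivalence of sections. -/
def appEquiv (e : IsoOn M N U) (V : X.Opens) (hV : V ≤ U) : Γ(M, V) ≃ₗ[Γ(X, V)] Γ(N, V) :=
  { e.hom.app V hV with
    invFun := e.inv.app V hV
    left_inv := e.inv_hom_app V hV
    right_inv := e.hom_inv_app V hV }

/-- An isomorphism of modules gives one on every open. -/
def ofIso (e : M ≅ N) (U : X.Opens) : IsoOn M N U where
  hom := HomOn.ofHom e.hom U
  inv := HomOn.ofHom e.inv U
  hom_inv := HomOn.ext' fun V _ x => congr($(congrArg (fun φ : M ⟶ M => φ.app V) e.hom_inv_id).hom x)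
  inv_hom := HomOn.ext' fun V _ x => congr($(congrArg (fun φ : N ⟶ N => φ.app V) e.inv_hom_id).hom x)

/-- An isomorphism on the whole space is an isomorphism of modules. -/
def toIso (e : IsoOn M N ⊤) : M ≅ N where
  hom := e.hom.toHom
  inv := e.inv.toHom
  hom_inv_id := by ext V x; exact e.inv_hom_app V le_top x
  inv_hom_id := by ext V x; exact e.hom_inv_app V le_top x

end IsoOn

/-- An isomorphism on the members of a cover, compatible on overlaps, glues. -/
def IsoOn.glue {M N : X.Modules} {U : X.Opens} {ι : Type*} (W : ι → X.Opens)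
    (hW : ∀ i, W i ≤ U) (hcov : U ≤ ⨆ i, W i) (e : ∀ i, IsoOn M N (W i))
    (he : ∀ i j, (e i).restrict (inf_le_left : W i ⊓ W j ≤ W i) =
      (e j).restrict (inf_le_right : W i ⊓ W j ≤ W j)) : IsoOn M N U where
  hom := HomOn.glue W hcov (fun i => (e i).hom) fun i j => congrArg IsoOn.hom (he i j)
  inv := HomOn.glue W hcov (fun i => (e i).inv) fun i j => congrArg IsoOn.inv (he i j)
  hom_inv := HomOn.ext_of_cover W hW hcov fun i => HomOn.ext' fun V hV x => by
    have h1 := HomOn.glue_restrict W hW hcov (fun i => (e i).hom)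
      (fun i j => congrArg IsoOn.hom (he i j)) i
    have h2 := HomOn.glue_restrict W hW hcov (fun i => (e i).inv)
      (fun i j => congrArg IsoOn.inv (he i j)) i
    have h1' := LinearMap.congr_fun (congrFun (congrFun (congrArg HomOn.app h1) V) hV) x
    simp only [HomOn.restrict_app, HomOn.comp_app, HomOn.id_app] at h1' ⊢
    rw [h1']
    exact (LinearMap.congr_fun (congrFun (congrFun (congrArg HomOn.app h2) V) hV) _).trans
      ((e i).inv_hom_app V hV x)
  inv_hom := HomOn.ext_of_cover W hW hcov fun i => HomOn.ext' fun V hV x => by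
    have h1 := HomOn.glue_restrict W hW hcov (fun i => (e i).inv)
      (fun i j => congrArg IsoOn.inv (he i j)) i
    have h2 := HomOn.glue_restrict W hW hcov (fun i => (e i).hom)
      (fun i j => congrArg IsoOn.hom (he i j)) i
    have h1' := LinearMap.congr_fun (congrFun (congrFun (congrArg HomOn.app h1) V) hV) x
    simp only [HomOn.restrict_app, HomOn.comp_app, HomOn.id_app] at h1' ⊢
    rw [h1']
    exact (LinearMap.congr_fun (congrFun (congrFun (congrArg HomOn.app h2) V) hV) _).trans
      ((e i).hom_inv_app V hV x)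

section Restrict

variable {M N : X.Modules} {U : X.Opens}

theorem le_image_preimage {V : X.Opens} (hV : V ≤ U) : V ≤ U.ι ''ᵁ (U.ι ⁻¹ᵁ V) := by
  rw [Scheme.Hom.image_preimage_eq_opensRange_inf, Scheme.Opens.opensRange_ι]
  exact le_inf hV le_rfl

/-- A morphism of restrictions on the sections over an open subscheme. -/
def restrictHomApp (φ : M.restrict U.ι ⟶ N.restrict U.ι) (V : U.toScheme.Opens) :
    Γ(M, U.ι ''ᵁ V) →+ Γ(N, U.ι ''ᵁ V) :=
  (φ.app V).hom

theorem restrictHomApp_smul (φ : M.restrict U.ι ⟶ N.restrict U.ι) (V : U.toScheme.Opens)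
    (r : Γ(X, U.ι ''ᵁ V)) (x : Γ(M, U.ι ''ᵁ V)) :
    restrictHomApp φ V (r • x) = r • restrictHomApp φ V x := by
  have h := φ.app_smul (U := V) ((U.ι.appIso V).hom r) x
  have hM : (U.ι.appIso V).inv ((U.ι.appIso V).hom r) = r :=
    Iso.hom_inv_id_apply (U.ι.appIso V) r
  change restrictHomApp φ V ((U.ι.appIso V).inv ((U.ι.appIso V).hom r) • x) =
    (U.ι.appIso V).inv ((U.ι.appIso V).hom r) • restrictHomApp φ V x at h
  rwa [hM] at h

theorem restrictHomApp_resSec (φ : M.restrict U.ι ⟶ N.restrict U.ι) {V W : U.toScheme.Opens}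
    (h : W ≤ V) (x : Γ(M, U.ι ''ᵁ V)) :
    restrictHomApp φ W (resSec M (U.ι.image_mono h) x) =
      resSec N (U.ι.image_mono h) (restrictHomApp φ V x) :=
  app_resSec φ h x

/-- A morphism on an open subscheme gives a morphism on the open. -/
def HomOn.ofRestrict (φ : M.restrict U.ι ⟶ N.restrict U.ι) : HomOn M N U where
  app V hV :=
    { toFun := fun x => resSec N (le_image_preimage hV)
        (restrictHomApp φ (U.ι ⁻¹ᵁ V) (resSec M (U.ι.image_preimage_le V) x))
      map_add' := fun x y => by simp only [map_add]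
      map_smul' := fun r x => by
        simp only [RingHom.id_apply, resSec_smul, restrictHomApp_smul]
        congr 1
        rw [← ConcreteCategory.comp_apply, ← X.presheaf.map_comp, ← op_comp,
          homOfLE_comp]
        show (X.presheaf.map (𝟙 (op V))).hom r = r
        rw [X.presheaf.map_id]
        rfl }
  natural V W hV h x := by
    show resSec N _ (restrictHomApp φ _ (resSec M _ (resSec M h x))) = resSec N h (resSec N _ _)
    rw [resSec_resSec, ← resSec_resSec M (U.ι.image_preimage_le V)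
      (U.ι.image_mono (fun _ hx => h hx : U.ι ⁻¹ᵁ W ≤ U.ι ⁻¹ᵁ V)),
      restrictHomApp_resSec φ (show U.ι ⁻¹ᵁ W ≤ U.ι ⁻¹ᵁ V from fun _ hx => h hx), resSec_resSec, resSec_resSec]

/-- The morphism of restrictions of a morphism on the open. -/
def HomOn.toRestrict (φ : HomOn M N U) : M.restrict U.ι ⟶ N.restrict U.ι :=
  homOfApp (fun V =>
    { toFun := fun x => φ.app (U.ι ''ᵁ V) (U.ι_image_le V) x
      map_add' := fun x y => map_add _ x y
      map_smul' := fun _r x => (φ.app (U.ι ''ᵁ V) (U.ι_image_le V)).map_smul _ x })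
    fun _V _W h x => φ.natural _ _ _ (U.ι.image_mono h) x

theorem HomOn.toRestrict_ofRestrict (φ : HomOn M N U) : HomOn.ofRestrict φ.toRestrict = φ :=
  HomOn.ext' fun V hV x => by
    show resSec N (le_image_preimage hV) (φ.app _ _ (resSec M _ x)) = _
    rw [← φ.natural, resSec_resSec, resSec_self]

theorem HomOn.ofRestrict_toRestrict (φ : M.restrict U.ι ⟶ N.restrict U.ι) :
    (HomOn.ofRestrict φ).toRestrict = φ := by
  ext V x
  show resSec N (le_image_preimage (U.ι_image_le V))
    (restrictHomApp φ (U.ι ⁻¹ᵁ (U.ι ''ᵁ V)) (resSec M _ x)) = restrictHomApp φ V x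
  have h : U.ι ⁻¹ᵁ (U.ι ''ᵁ V) ≤ V := (U.ι.preimage_image_eq V).le
  exact (congrArg (resSec N _) (restrictHomApp_resSec φ h x)).trans
    ((resSec_resSec N _ _ _).trans (resSec_self N _ _))

theorem restrictHomApp_inv (f : M.restrict U.ι ≅ N.restrict U.ι) (V : U.toScheme.Opens)
    (x : Γ(M, U.ι ''ᵁ V)) : restrictHomApp f.inv V (restrictHomApp f.hom V x) = x :=
  congr($(congrArg (fun φ : M.restrict U.ι ⟶ M.restrict U.ι => φ.app V) f.hom_inv_id).hom x)

theorem HomOn.ofRestrict_comp_inv (f : M.restrict U.ι ≅ N.restrict U.ι) :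
    (HomOn.ofRestrict f.hom).comp (HomOn.ofRestrict f.inv) = HomOn.id M U :=
  HomOn.ext' fun V hV x => by
    show resSec M (le_image_preimage hV) (restrictHomApp f.inv _ (resSec N _ (resSec N
      (le_image_preimage hV) (restrictHomApp f.hom _ (resSec M _ x))))) = x
    rw [resSec_resSec, resSec_self, restrictHomApp_inv, resSec_resSec, resSec_self]

/-- Isomorphisms on an open are isomorphisms of the restrictions. -/
def IsoOn.equivRestrict : IsoOn M N U ≃ (M.restrict U.ι ≅ N.restrict U.ι) where
  toFun e :=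
    { hom := e.hom.toRestrict
      inv := e.inv.toRestrict
      hom_inv_id := by ext V x; exact e.inv_hom_app _ _ x
      inv_hom_id := by ext V x; exact e.hom_inv_app _ _ x }
  invFun f :=
    { hom := HomOn.ofRestrict f.hom
      inv := HomOn.ofRestrict f.inv
      hom_inv := HomOn.ofRestrict_comp_inv f
      inv_hom := HomOn.ofRestrict_comp_inv f.symm }
  left_inv e := IsoOn.ext_hom (HomOn.toRestrict_ofRestrict e.hom)
  right_inv f := Iso.ext (HomOn.ofRestrict_toRestrict f.hom)

/-- Isomorphisms on an open are isomorphisms of the pullbacks. -/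
def IsoOn.equivPullback : IsoOn M N U ≃
    ((Scheme.Modules.pullback U.ι).obj M ≅ (Scheme.Modules.pullback U.ι).obj N) :=
  IsoOn.equivRestrict.trans
    { toFun := fun e => ((Scheme.Modules.restrictFunctorIsoPullback U.ι).app M).symm ≪≫ e ≪≫
        (Scheme.Modules.restrictFunctorIsoPullback U.ι).app N
      invFun := fun e => (Scheme.Modules.restrictFunctorIsoPullback U.ι).app M ≪≫ e ≪≫
        ((Scheme.Modules.restrictFunctorIsoPullback U.ι).app N).symm
      left_inv := fun e => by ext1; simp
      right_inv := fun e => by ext1; simp }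

/-- Invertibility in terms of isomorphisms on opens. -/
theorem isInvertible_iff : Scheme.Modules.IsInvertible M ↔ ∀ x : X, ∃ U : X.Opens, x ∈ U ∧
    Nonempty (IsoOn M (SheafOfModules.unit X.ringCatSheaf) U) := by
  refine ⟨fun h x => ?_, fun h => ⟨fun x => ?_⟩⟩
  · obtain ⟨U, hx, ⟨e⟩⟩ := h.exists_trivialization x
    exact ⟨U, hx, ⟨IsoOn.equivPullback.symm (e ≪≫ (Scheme.Modules.pullbackUnitIso U.ι).symm)⟩⟩
  · obtain ⟨U, hx, ⟨e⟩⟩ := h x
    exact ⟨U, hx, ⟨IsoOn.equivPullback e ≪≫ Scheme.Modules.pullbackUnitIso U.ι⟩⟩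

end Restrict

end Fermat.Agent.RelPic
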