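import Fermat.Agent.RelPic.Modules.Affine

/-!
# Sections of pullbacks of modules

The unit of the adjunction gives a map on sections.  It sends generators to generators, and on
affine opens it is a base change for invertible modules.
-/

set_option autoImplicit false

noncomputable section

universe u

open CategoryTheory CategoryTheory.Limits AlgebraicGeometry TopologicalSpace Opposite
open scoped TensorProduct

namespace Fermat.Agent.RelPic

variable {X X' : Scheme.{u}} (ψ : X' ⟶ X)

/-- Pulling back a section of a module. -/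
def pbSec (M : X.Modules) (V : X.Opens) :
    Γ(M, V) →+ Γ((Scheme.Modules.pullback ψ).obj M, ψ ⁻¹ᵁ V) :=
  (((Scheme.Modules.pullbackPushforwardAdjunction ψ).unit.app M).app V).hom

theorem pbSec_smul (M : X.Modules) (V : X.Opens) (r : Γ(X, V)) (x : Γ(M, V)) :
    pbSec ψ M V (r • x) = ψ.app V r • pbSec ψ M V x :=
  ((Scheme.Modules.pullbackPushforwardAdjunction ψ).unit.app M).app_smul r x

theorem pbSec_resSec (M : X.Modules) {V W : X.Opens} (h : W ≤ V) (x : Γ(M, V)) :
    pbSec ψ M W (resSec M h x) = resSec _ (ψ.preimage_mono h) (pbSec ψ M V x) :=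
  app_resSec ((Scheme.Modules.pullbackPushforwardAdjunction ψ).unit.app M) h x

theorem app_map_res {V W : X.Opens} (h : W ≤ V) (r : Γ(X, V)) :
    ψ.app W (X.presheaf.map (homOfLE h).op r) =
      X'.presheaf.map (homOfLE (ψ.preimage_mono h)).op (ψ.app V r) :=
  congr($(ψ.naturality (homOfLE h).op).hom r)

section OnOpen

variable {Y : Scheme.{u}} (N : Y.Modules) (T : Y.Opens)

/-- A module restricted to an open and pushed forward again. -/
def onOpen : Y.Modules := (Scheme.Modules.pushforward T.ι).obj (N.restrict T.ι)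

/-- A section of `onOpen`, as a section of the module. -/
def onOpenSec (V : Y.Opens) : Γ(onOpen N T, V) ≃+ Γ(N, T.ι ''ᵁ (T.ι ⁻¹ᵁ V)) :=
  AddEquiv.refl _

theorem onOpenSec_smul (V : Y.Opens) (r : Γ(Y, V)) (y : Γ(onOpen N T, V)) :
    onOpenSec N T V (r • y) =
      Y.presheaf.map (homOfLE (T.ι.image_preimage_le V)).op r • onOpenSec N T V y := by
  show (T.ι.appIso (T.ι ⁻¹ᵁ V)).inv (T.ι.app V r) • onOpenSec N T V y = _
  exact congrArg (· • onOpenSec N T V y) congr($(T.ι.app_appIso_inv V).hom r)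

theorem onOpenSec_resSec {V W : Y.Opens} (h : W ≤ V) (y : Γ(onOpen N T, V)) :
    onOpenSec N T W (resSec _ h y) =
      resSec N (T.ι.image_mono (T.ι.preimage_mono h)) (onOpenSec N T V y) := rfl

variable {N T}

/-- A morphism on an open as a morphism to `onOpen`. -/
def HomOn.toOnOpen {P : Y.Modules} (φ : HomOn P N T) : P ⟶ onOpen N T :=
  homOfApp (fun V =>
    { toFun := fun x => (onOpenSec N T V).symm
        (φ.app _ (T.ι_image_le _) (resSec P (T.ι.image_preimage_le V) x))
      map_add' := fun x y => by rw [map_add, map_add, map_add]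
      map_smul' := fun r x => (onOpenSec N T V).injective (by
        rw [RingHom.id_apply, onOpenSec_smul, AddEquiv.apply_symm_apply, AddEquiv.apply_symm_apply,
          resSec_smul, map_smul]) })
    fun V W h x => (onOpenSec N T W).injective (by
      show φ.app _ _ (resSec P _ (resSec P h x)) =
        resSec N (T.ι.image_mono (T.ι.preimage_mono h)) (φ.app _ _ (resSec P _ x))
      rw [← φ.natural, resSec_resSec, resSec_resSec])

/-- A morphism to `onOpen` as a morphism on the open. -/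
def HomOn.ofOnOpen {P : Y.Modules} (g : P ⟶ onOpen N T) : HomOn P N T where
  app V hV :=
    { toFun := fun x => resSec N (le_image_preimage hV) (onOpenSec N T V (g.app V x))
      map_add' := fun x y => by rw [map_add, map_add, map_add]
      map_smul' := fun r x => by
        rw [RingHom.id_apply, g.app_smul, onOpenSec_smul, resSec_smul, resRing_resRing,
          resRing_self] }
  natural V W hV h x := by
    show resSec N _ (onOpenSec N T W (g.app W (resSec P h x))) = resSec N h (resSec N _ _)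
    rw [app_resSec, onOpenSec_resSec, resSec_resSec, resSec_resSec]

theorem HomOn.ofOnOpen_toOnOpen {P : Y.Modules} (φ : HomOn P N T) :
    HomOn.ofOnOpen φ.toOnOpen = φ :=
  HomOn.ext' fun V hV x => by
    show resSec N (le_image_preimage hV) (φ.app _ _ (resSec P _ x)) = _
    rw [← φ.natural, resSec_resSec, resSec_self]

end OnOpen

section HomOut

variable {ψ} {M : X.Modules} {N : X'.Modules} {T : X'.Opens}

/-- Morphisms out of a pullback are determined on pulled back sections. -/
theorem HomOn.ext_pbSec {φ φ' : HomOn ((Scheme.Modules.pullback ψ).obj M) N T}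
    (h : ∀ (V : X.Opens) (x : Γ(M, V)),
      φ.app (ψ ⁻¹ᵁ V ⊓ T) inf_le_right (resSec _ inf_le_left (pbSec ψ M V x)) =
        φ'.app (ψ ⁻¹ᵁ V ⊓ T) inf_le_right (resSec _ inf_le_left (pbSec ψ M V x))) : φ = φ' := by
  rw [← HomOn.ofOnOpen_toOnOpen φ, ← HomOn.ofOnOpen_toOnOpen φ']
  congr 1
  refine ((Scheme.Modules.pullbackPushforwardAdjunction ψ).homEquiv _ _).injective ?_
  rw [Adjunction.homEquiv_unit, Adjunction.homEquiv_unit]
  ext V x
  have hle : T.ι ''ᵁ (T.ι ⁻¹ᵁ (ψ ⁻¹ᵁ V)) ≤ ψ ⁻¹ᵁ V ⊓ T :=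
    le_inf (T.ι.image_preimage_le _) (T.ι_image_le _)
  have key : ∀ χ : HomOn ((Scheme.Modules.pullback ψ).obj M) N T,
      χ.app (T.ι ''ᵁ (T.ι ⁻¹ᵁ (ψ ⁻¹ᵁ V))) (T.ι_image_le _)
        (resSec _ (T.ι.image_preimage_le _) (pbSec ψ M V x)) =
        resSec N hle (χ.app (ψ ⁻¹ᵁ V ⊓ T) inf_le_right (resSec _ inf_le_left (pbSec ψ M V x))) :=
    fun χ => by rw [← χ.natural, resSec_resSec]
  exact (key φ).trans ((congrArg _ (h V x)).trans (key φ').symm)

variable (ψ) in
/-- The data of a morphism out of a pullback on an open. -/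
structure PbData (M : X.Modules) (N : X'.Modules) (T : X'.Opens) where
  /-- The value on pulled back sections. -/
  app : ∀ V : X.Opens, Γ(M, V) →+ Γ(N, ψ ⁻¹ᵁ V ⊓ T)
  smul : ∀ (V : X.Opens) (r : Γ(X, V)) (x : Γ(M, V)), app V (r • x) =
    X'.presheaf.map (homOfLE (inf_le_left : ψ ⁻¹ᵁ V ⊓ T ≤ ψ ⁻¹ᵁ V)).op (ψ.app V r) • app V x
  natural : ∀ (V W : X.Opens) (h : W ≤ V) (x : Γ(M, V)), app W (resSec M h x) =
    resSec N (inf_le_inf_right _ (ψ.preimage_mono h)) (app V x)

/-- The transpose of the data. -/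
def PbData.transpose (F : PbData ψ M N T) : M ⟶ (Scheme.Modules.pushforward ψ).obj (onOpen N T) :=
  homOfApp (fun V =>
    { toFun := fun x => (onOpenSec N T (ψ ⁻¹ᵁ V)).symm
        (resSec N (le_inf (T.ι.image_preimage_le _) (T.ι_image_le _)) (F.app V x))
      map_add' := fun x y => by
        rw [map_add, map_add]
        exact map_add (onOpenSec N T (ψ ⁻¹ᵁ V)).symm _ _
      map_smul' := fun r x => by
        show _ = (show Γ(onOpen N T, ψ ⁻¹ᵁ V) from ψ.app V r • _)
        refine (onOpenSec N T (ψ ⁻¹ᵁ V)).injective ?_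
        rw [onOpenSec_smul, AddEquiv.apply_symm_apply, AddEquiv.apply_symm_apply, F.smul,
          resSec_smul, resRing_resRing] })
    fun V W h x => by
      show resSec N _ (F.app W (resSec M h x)) =
        resSec N (T.ι.image_mono (T.ι.preimage_mono (ψ.preimage_mono h)))
          (resSec N _ (F.app V x))
      rw [F.natural, resSec_resSec, resSec_resSec]

/-- The morphism out of a pullback given by values on pulled back sections. -/
def PbData.hom (F : PbData ψ M N T) : HomOn ((Scheme.Modules.pullback ψ).obj M) N T :=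
  HomOn.ofOnOpen (((Scheme.Modules.pullbackPushforwardAdjunction ψ).homEquiv _ _).symm F.transpose)

theorem PbData.hom_app (F : PbData ψ M N T) (V : X.Opens) (x : Γ(M, V)) :
    F.hom.app (ψ ⁻¹ᵁ V ⊓ T) inf_le_right (resSec _ inf_le_left (pbSec ψ M V x)) = F.app V x := by
  set g := ((Scheme.Modules.pullbackPushforwardAdjunction ψ).homEquiv _ _).symm F.transpose
  have hg : (Scheme.Modules.pullbackPushforwardAdjunction ψ).unit.app M ≫
      (Scheme.Modules.pushforward ψ).map g = F.transpose := by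
    exact ((Scheme.Modules.pullbackPushforwardAdjunction ψ).homEquiv_unit _ _ g).symm.trans
      (Equiv.apply_symm_apply _ _)
  have h : g.app (ψ ⁻¹ᵁ V) (pbSec ψ M V x) = F.transpose.app V x := by
    rw [← hg]; rfl
  show resSec N _ (onOpenSec N T _ (g.app _ (resSec _ _ (pbSec ψ M V x)))) = _
  rw [app_resSec, h, onOpenSec_resSec, resSec_resSec]
  show resSec N _ (resSec N _ (F.app V x)) = _
  rw [resSec_resSec, resSec_self]

end HomOut

section Generators

variable {ψ} {M : X.Modules} {W : X.Opens} {s : Γ(M, W)}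

/-- The coefficient with respect to a generator, pulled back. -/
def IsGen.pbData (hs : IsGen s) :
    PbData ψ M (unitMod X') (ψ ⁻¹ᵁ W) where
  app V :=
    { toFun := fun x => toUnit _ (ψ.app (V ⊓ W) ((toUnit _).symm
        (hs.isoOn.inv.app (V ⊓ W) inf_le_right (resSec M inf_le_left x))))
      map_zero' := by simp only [map_zero]; rfl
      map_add' := fun x y => by simp only [map_add]; rfl }
  smul V r x := by
    show toUnit _ _ = _ • toUnit _ _
    rw [← map_smul (toUnit _), smul_eq_mul, resSec_smul, map_smul, map_smul, smul_eq_mul,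
      map_mul, app_map_res]
    rfl
  natural V V' h x := by
    show toUnit _ _ = resSec (unitMod X') _ (toUnit _ _)
    rw [resSec_resSec, ← resSec_resSec M (inf_le_left : V ⊓ W ≤ V) (inf_le_inf_right W h),
      hs.isoOn.inv.natural _ _ inf_le_right]
    exact congrArg _ (app_map_res ψ (inf_le_inf_right W h) _)

/-- The pullback of a generator is a generator. -/
theorem IsGen.pullback (hs : IsGen s) : IsGen (pbSec ψ M W s) := by
  have hval : ∀ (V : X.Opens) (hV : V ≤ W) (x : Γ(M, V)),
      (toUnit V).symm (hs.isoOn.inv.app V hV x) • resSec M hV s = x := fun V hV x =>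
    hs.isoOn.hom_inv_app V hV x
  have h1 : hs.pbData.hom.comp (smulHom (pbSec ψ M W s)) = HomOn.id _ (ψ ⁻¹ᵁ W) := by
    refine HomOn.ext_pbSec fun V x => ?_
    rw [HomOn.comp_app, PbData.hom_app, HomOn.id_app]
    show (smulHom (pbSec ψ M W s)).app _ _ (toUnit _ (ψ.app (V ⊓ W) _)) = _
    rw [smulHom_app, ← pbSec_resSec ψ M (inf_le_right : V ⊓ W ≤ W),
      ← pbSec_smul ψ M (V ⊓ W), hval, pbSec_resSec]
    rfl
  have h2 : (smulHom (pbSec ψ M W s)).comp hs.pbData.hom = HomOn.id _ (ψ ⁻¹ᵁ W) := by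
    refine HomOn.ext' fun V hV r => ?_
    obtain ⟨r, rfl⟩ := (toUnit V).surjective r
    have hc : (toUnit (W ⊓ W)).symm (hs.isoOn.inv.app (W ⊓ W) inf_le_right
        (resSec M inf_le_left s)) = 1 := by
      apply (hs (W ⊓ W) inf_le_left).1
      show _ • resSec M _ s = (1 : Γ(X, W ⊓ W)) • resSec M _ s
      rw [one_smul]
      exact hval _ inf_le_right _
    have hs1 : hs.pbData.hom.app (ψ ⁻¹ᵁ W ⊓ ψ ⁻¹ᵁ W) inf_le_right
        (resSec _ inf_le_left (pbSec ψ M W s)) = toUnit _ 1 := by
      rw [PbData.hom_app]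
      show toUnit _ (ψ.app (W ⊓ W) _) = _
      rw [hc, map_one]
      rfl
    rw [HomOn.comp_app, HomOn.id_app, smulHom_app, map_smul,
      ← resSec_resSec _ (inf_le_left : ψ ⁻¹ᵁ W ⊓ ψ ⁻¹ᵁ W ≤ _) (le_inf hV hV),
      hs.pbData.hom.natural _ _ inf_le_right (le_inf hV hV), hs1, resSec_toUnit, map_one,
      ← map_smul, smul_eq_mul, mul_one]
  have := isGen_of_isoOn ({ hom := _, inv := _, hom_inv := h2, inv_hom := h1 } :
    IsoOn (unitMod X') _ (ψ ⁻¹ᵁ W))
  simpa only [smulHom_app, one_smul, resSec_self] using this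

theorem isInvertible_pullback' (hM : Scheme.Modules.IsInvertible M) :
    Scheme.Modules.IsInvertible ((Scheme.Modules.pullback ψ).obj M) :=
  isInvertible_of_isGen fun x => by
    obtain ⟨W, hW, s, hs⟩ := exists_isGen hM (ψ.base x)
    exact ⟨ψ ⁻¹ᵁ W, hW, _, hs.pullback⟩

end Generators

section AffineBaseChange

/-- Pulling back a section to a smaller open. -/
def pbLE (M : X.Modules) {U : X.Opens} {U' : X'.Opens} (h : U' ≤ ψ ⁻¹ᵁ U) :
    Γ(M, U) →+ Γ((Scheme.Modules.pullback ψ).obj M, U') :=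
  (resSec _ h).comp (pbSec ψ M U)

theorem pbLE_smul (M : X.Modules) {U : X.Opens} {U' : X'.Opens} (h : U' ≤ ψ ⁻¹ᵁ U) (r : Γ(X, U))
    (x : Γ(M, U)) : pbLE ψ M h (r • x) = ψ.appLE U U' h r • pbLE ψ M h x := by
  show resSec _ h (pbSec ψ M U (r • x)) = _
  rw [pbSec_smul, resSec_smul]
  rfl

theorem resSec_pbLE (M : X.Modules) {U V : X.Opens} {U' V' : X'.Opens} (h : U' ≤ ψ ⁻¹ᵁ U)
    (hV : V ≤ U) (hV' : V' ≤ U') (h' : V' ≤ ψ ⁻¹ᵁ V) (x : Γ(M, U)) :
    resSec _ hV' (pbLE ψ M h x) = pbLE ψ M h' (resSec M hV x) := by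
  show resSec _ hV' (resSec _ h (pbSec ψ M U x)) = resSec _ h' (pbSec ψ M V (resSec M hV x))
  rw [pbSec_resSec, resSec_resSec, resSec_resSec]

variable {M : X.Modules} {U : X.Opens} {U' : X'.Opens} (hU : IsAffineOpen U)
  (hU' : IsAffineOpen U') (h : U' ≤ ψ ⁻¹ᵁ U) (hM : Scheme.Modules.IsInvertible M)

include hU hU' hM in
/-- Pulled back sections span the sections over an affine open. -/
theorem span_pbLE :
    Submodule.span Γ(X', U') (Set.range (pbLE ψ M h)) = ⊤ := by
  have := invertible_sections hU hM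
  have hloc := localizes_of_isInvertible hU hM
  have hloc' := localizes_of_isInvertible hU' (isInvertible_pullback' (ψ := ψ) hM)
  let s : Set Γ(X', U') := {f' | ∀ y : Γ((Scheme.Modules.pullback ψ).obj M, U'),
    ∃ n : ℕ, f' ^ n • y ∈ Submodule.span Γ(X', U') (Set.range (pbLE ψ M h))}
  have hs : Ideal.span s = ⊤ := by
    rw [← hU'.self_le_iSup_basicOpen_iff]
    intro x hx
    obtain ⟨φ, m, hxm, hm⟩ := exists_isGen_of_invertible hU hloc (h hx)
    have hD : X'.basicOpen (ψ.appLE U U' h (φ m)) = U' ⊓ ψ ⁻¹ᵁ X.basicOpen (φ m) :=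
      Scheme.basicOpen_appLE ψ U' U h (φ m)
    refine TopologicalSpace.Opens.mem_iSup.mpr ⟨⟨ψ.appLE U U' h (φ m), fun y => ?_⟩,
      hD.ge ⟨hx, hxm⟩⟩
    have hle : X'.basicOpen (ψ.appLE U U' h (φ m)) ≤ ψ ⁻¹ᵁ X.basicOpen (φ m) :=
      hD.le.trans inf_le_right
    obtain ⟨c, hc⟩ := (hm.pullback (ψ := ψ) _ hle).2 (resSec _ (X'.basicOpen_le _) y)
    have := hU'.isLocalization_basicOpen (ψ.appLE U U' h (φ m))
    obtain ⟨⟨a, _, k, rfl⟩, ha⟩ := IsLocalization.surj
      (Submonoid.powers (ψ.appLE U U' h (φ m))) c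
    replace ha : c * X'.presheaf.map (homOfLE (X'.basicOpen_le _)).op
        (ψ.appLE U U' h (φ m) ^ k) = X'.presheaf.map (homOfLE (X'.basicOpen_le _)).op a := ha
    have h0 : resSec _ (X'.basicOpen_le (ψ.appLE U U' h (φ m)))
        (ψ.appLE U U' h (φ m) ^ k • y - a • pbLE ψ M h m) = 0 := by
      rw [map_sub, resSec_smul, resSec_smul, ← hc, ← ha, resSec_pbLE ψ M h (X.basicOpen_le _)
        (X'.basicOpen_le _) hle, sub_eq_zero, ← mul_smul, mul_comm]
      rfl
    obtain ⟨l, hl⟩ := hloc'.exists_zero _ _ h0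
    refine ⟨l + k, ?_⟩
    rw [smul_sub, sub_eq_zero, ← mul_smul, ← pow_add] at hl
    rw [hl]
    exact Submodule.smul_mem _ _ (Submodule.smul_mem _ _ (Submodule.subset_span ⟨m, rfl⟩))
  refine eq_top_iff.mpr fun y _ =>
    Submodule.mem_of_span_eq_top_of_smul_pow_mem _ s hs y fun f => f.2 y

include hU hU' hM in
/-- On affine opens the pullback of an invertible module is the base change. -/
theorem isBaseChange_pbLE [Algebra Γ(X, U) Γ(X', U')]
    [Module Γ(X, U) Γ((Scheme.Modules.pullback ψ).obj M, U')]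
    [IsScalarTower Γ(X, U) Γ(X', U') Γ((Scheme.Modules.pullback ψ).obj M, U')]
    (L : Γ(M, U) →ₗ[Γ(X, U)] Γ((Scheme.Modules.pullback ψ).obj M, U'))
    (hL : ∀ t, L t = pbLE ψ M h t) : IsBaseChange Γ(X', U') L := by
  have := invertible_sections hU hM
  have := invertible_sections hU' (isInvertible_pullback' (ψ := ψ) hM)
  have hsurj : Function.Surjective (LinearMap.liftBaseChange Γ(X', U') L) := by
    rw [← LinearMap.range_eq_top, eq_top_iff, ← span_pbLE ψ hU hU' h hM, Submodule.span_le]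
    rintro _ ⟨t, rfl⟩
    exact ⟨1 ⊗ₜ t, by rw [LinearMap.liftBaseChange_tmul, one_smul, hL]⟩
  exact IsBaseChange.of_equiv (LinearEquiv.ofBijective _
    (Module.Invertible.bijective_of_surjective hsurj))
    fun t => by simp [LinearMap.liftBaseChange_tmul]

end AffineBaseChange

end Fermat.Agent.RelPic
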