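import Fermat.Agent.RelPic.Modules.Basic

/-!
# Gluing modules along an open cover

A gluing datum consists of modules `N i` on the whole space and isomorphisms on the overlaps
satisfying the cocycle condition.  (Modules on the members of the cover are pushed forward.)
-/

set_option autoImplicit false

noncomputable section

universe u

open CategoryTheory CategoryTheory.Limits AlgebraicGeometry TopologicalSpace Opposite

namespace Fermat.Agent.RelPic

variable {X : Scheme.{u}}

theorem resRing_resRing {V W Z : X.Opens} (h : W ≤ V) (h' : Z ≤ W) (r : Γ(X, V)) :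
    X.presheaf.map (homOfLE h').op (X.presheaf.map (homOfLE h).op r) =
      X.presheaf.map (homOfLE (h'.trans h)).op r := by
  rw [← ConcreteCategory.comp_apply, ← X.presheaf.map_comp]
  rfl

theorem resRing_self {V : X.Opens} (h : V ≤ V) (r : Γ(X, V)) :
    X.presheaf.map (homOfLE h).op r = r := by
  show (X.presheaf.map (𝟙 (op V))).hom r = r
  rw [X.presheaf.map_id]
  rfl

/-- Modules with isomorphisms on the overlaps of an open cover. -/
structure GlueData (X : Scheme.{u}) where
  /-- The index type. -/
  ι : Type u
  /-- The cover. -/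
  U : ι → X.Opens
  cover : ⊤ ≤ ⨆ i, U i
  /-- The modules. -/
  N : ι → X.Modules
  /-- The transition isomorphisms. -/
  φ : ∀ i j, IsoOn (N i) (N j) (U i ⊓ U j)
  cocycle : ∀ (i j k : ι) (V : X.Opens) (hi : V ≤ U i) (hj : V ≤ U j) (hk : V ≤ U k)
    (x : Γ(N i, V)), (φ j k).hom.app V (le_inf hj hk) ((φ i j).hom.app V (le_inf hi hj) x) =
      (φ i k).hom.app V (le_inf hi hk) x

namespace GlueData

variable (D : GlueData X)

theorem φ_self (i : D.ι) (V : X.Opens) (h : V ≤ D.U i) (x : Γ(D.N i, V)) :
    (D.φ i i).hom.app V (le_inf h h) x = x :=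
  ((D.φ i i).appEquiv V (le_inf h h)).injective (D.cocycle i i i V h h h x)

/-- The compatible families of sections. -/
def sec (V : X.Opens) : AddSubgroup (∀ i, Γ(D.N i, V ⊓ D.U i)) where
  carrier := {s | ∀ (i j : D.ι) (W : X.Opens) (hi : W ≤ V ⊓ D.U i) (hj : W ≤ V ⊓ D.U j),
    (D.φ i j).hom.app W (le_inf (hi.trans inf_le_right) (hj.trans inf_le_right))
      (resSec (D.N i) hi (s i)) = resSec (D.N j) hj (s j)}
  add_mem' := fun hs ht i j W hi hj => by
    simp only [Pi.add_apply, map_add, hs i j W hi hj, ht i j W hi hj]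
  zero_mem' := fun i j W hi hj => by simp only [Pi.zero_apply, map_zero]
  neg_mem' := fun hs i j W hi hj => by simp only [Pi.neg_apply, map_neg, hs i j W hi hj]

theorem sec_compat {V : X.Opens} (s : D.sec V) (i j : D.ι) (W : X.Opens) (hi : W ≤ V ⊓ D.U i)
    (hj : W ≤ V ⊓ D.U j) :
    (D.φ i j).hom.app W (le_inf (hi.trans inf_le_right) (hj.trans inf_le_right))
      (resSec (D.N i) hi (s.1 i)) = resSec (D.N j) hj (s.1 j) :=
  s.2 i j W hi hj

/-- Scaling a family by a section of the structure sheaf. -/
def smulFam {V : X.Opens} (r : Γ(X, V)) (s : ∀ i, Γ(D.N i, V ⊓ D.U i)) :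
    ∀ i, Γ(D.N i, V ⊓ D.U i) :=
  fun i => X.presheaf.map (homOfLE (inf_le_left : V ⊓ D.U i ≤ V)).op r • s i

theorem smulFam_mem {V : X.Opens} (r : Γ(X, V)) (s : D.sec V) : D.smulFam r s.1 ∈ D.sec V := by
  intro i j W hi hj
  simp only [smulFam, resSec_smul, map_smul, D.sec_compat s i j W hi hj, resRing_resRing]

instance secModule (V : X.Opens) : Module Γ(X, V) (D.sec V) where
  smul r s := ⟨D.smulFam r s.1, D.smulFam_mem r s⟩
  one_smul s := Subtype.ext (funext fun i => by
    show D.smulFam 1 s.1 i = _
    simp only [smulFam, map_one, one_smul])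
  mul_smul r r' s := Subtype.ext (funext fun i => by
    show D.smulFam (r * r') s.1 i = D.smulFam r (D.smulFam r' s.1) i
    simp only [smulFam, map_mul, mul_smul])
  smul_zero r := Subtype.ext (funext fun i => by
    show D.smulFam r 0 i = _
    simp only [smulFam, Pi.zero_apply, smul_zero]; rfl)
  smul_add r s t := Subtype.ext (funext fun i => by
    show D.smulFam r (s.1 + t.1) i = D.smulFam r s.1 i + D.smulFam r t.1 i
    simp only [smulFam, Pi.add_apply, smul_add])
  add_smul r r' s := Subtype.ext (funext fun i => by
    show D.smulFam (r + r') s.1 i = D.smulFam r s.1 i + D.smulFam r' s.1 i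
    simp only [smulFam, map_add, add_smul])
  zero_smul s := Subtype.ext (funext fun i => by
    show D.smulFam 0 s.1 i = _
    simp only [smulFam, map_zero, zero_smul]; rfl)

@[simp] theorem smul_val {V : X.Opens} (r : Γ(X, V)) (s : D.sec V) (i : D.ι) :
    (r • s).1 i = X.presheaf.map (homOfLE (inf_le_left : V ⊓ D.U i ≤ V)).op r • s.1 i := rfl

/-- Restriction of compatible families. -/
def secRes {V W : X.Opens} (h : W ≤ V) : D.sec V →+ D.sec W where
  toFun s := ⟨fun i => resSec (D.N i) (inf_le_inf_right _ h) (s.1 i), fun i j Z hi hj => by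
    simp only [resSec_resSec]
    exact D.sec_compat s i j Z _ _⟩
  map_zero' := Subtype.ext (funext fun i => map_zero _)
  map_add' s t := Subtype.ext (funext fun i => map_add _ _ _)

@[simp] theorem secRes_val {V W : X.Opens} (h : W ≤ V) (s : D.sec V) (i : D.ι) :
    (D.secRes h s).1 i = resSec (D.N i) (inf_le_inf_right _ h) (s.1 i) := rfl

/-- The presheaf of compatible families. -/
def presheafAb : TopCat.Presheaf Ab.{u} X where
  obj V := AddCommGrpCat.of (D.sec V.unop)
  map {V W} f := AddCommGrpCat.ofHom (D.secRes (leOfHom f.unop))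
  map_id V := AddCommGrpCat.ext fun s => Subtype.ext (funext fun i => by
    show resSec (D.N i) _ ((show D.sec V.unop from s).1 i) = _
    exact resSec_self _ _ _)
  map_comp {V W Z} f g := AddCommGrpCat.ext fun s => Subtype.ext (funext fun i => by
    show resSec (D.N i) _ ((show D.sec V.unop from s).1 i) =
      resSec (D.N i) _ (resSec (D.N i) _ ((show D.sec V.unop from s).1 i))
    exact (resSec_resSec _ _ _ _).symm)

theorem isSheaf_presheafAb : D.presheafAb.IsSheaf := by
  rw [TopCat.Presheaf.isSheaf_iff_isSheafUniqueGluing]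
  intro κ W s hs
  have hcov : ∀ i, iSup W ⊓ D.U i ≤ ⨆ a, W a ⊓ D.U i := fun i => (iSup_inf_eq W (D.U i)).le
  have hW : ∀ a i, W a ⊓ D.U i ≤ iSup W ⊓ D.U i := fun a i => inf_le_inf_right _ (le_iSup W a)
  have hex : ∀ i, ∃ t : Γ(D.N i, iSup W ⊓ D.U i), ∀ a,
      resSec (D.N i) (hW a i) t = (s a).1 i := fun i =>
    exists_sec_glue (D.N i) (fun a => W a ⊓ D.U i) (fun a => hW a i) (hcov i) _ fun a b => by
      have h := congrArg (fun t : D.sec (W a ⊓ W b) => resSec (D.N i)
        (show (W a ⊓ D.U i) ⊓ (W b ⊓ D.U i) ≤ W a ⊓ W b ⊓ D.U i from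
          le_inf (inf_le_inf inf_le_left inf_le_left) (inf_le_left.trans inf_le_right)) (t.1 i))
        (hs a b)
      simp only at h
      exact (resSec_resSec _ _ _ _).symm.trans (h.trans (resSec_resSec _ _ _ _))
  choose t ht using hex
  have htmem : t ∈ D.sec (iSup W) := by
    intro i j Z hi hj
    refine sec_ext (D.N j) (fun a => Z ⊓ W a) (fun a => inf_le_left) ?_ fun a => ?_
    · rw [← inf_iSup_eq]
      exact le_inf le_rfl (hi.trans inf_le_left)
    · rw [← (D.φ i j).hom.natural, resSec_resSec, resSec_resSec,
        ← resSec_resSec (D.N i) (hW a i) (le_inf inf_le_right (inf_le_left.trans (hi.trans inf_le_right))),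
        ← resSec_resSec (D.N j) (hW a j) (le_inf inf_le_right (inf_le_left.trans (hj.trans inf_le_right))),
        ht, ht]
      exact D.sec_compat (s a) i j _ _ _
  refine ⟨⟨t, htmem⟩, fun a => Subtype.ext (funext fun i => ht i a), fun t' ht' => ?_⟩
  refine Subtype.ext (funext fun i => sec_ext (D.N i) (fun a => W a ⊓ D.U i) (fun a => hW a i)
    (hcov i) fun a => ?_)
  exact (congrArg (fun q : D.sec (W a) => q.1 i) (ht' a)).trans (ht i a).symm

instance (V : X.Opensᵒᵖ) : Module ↑(X.ringCatSheaf.obj.obj V) ↑(D.presheafAb.obj V) :=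
  D.secModule V.unop

/-- The glued module. -/
def glue : X.Modules where
  val := PresheafOfModules.ofPresheaf D.presheafAb fun {V W} f r s =>
    Subtype.ext (funext fun i => by
      show resSec (D.N i) _ (((show Γ(X, V.unop) from r) • (show D.sec V.unop from s)).1 i) = _
      rw [smul_val, resSec_smul, resRing_resRing]
      show _ = X.presheaf.map _ (X.presheaf.map f r) • _
      rw [show X.presheaf.map f r = X.presheaf.map (homOfLE (leOfHom f.unop)).op r from rfl,
        resRing_resRing]
      rfl)
  isSheaf := D.isSheaf_presheafAb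

/-- The comparison with the `i`-th module on the `i`-th member. -/
def glueIso (i : D.ι) : IsoOn D.glue (D.N i) (D.U i) where
  hom :=
    { app := fun V hV =>
        { toFun := fun s => resSec (D.N i) (le_inf le_rfl hV) ((show D.sec V from s).1 i)
          map_add' := fun s t => map_add (resSec (D.N i) (le_inf le_rfl hV)) _ _
          map_smul' := fun r s => by
            show resSec (D.N i) _ ((r • (show D.sec V from s)).1 i) = _
            rw [smul_val, resSec_smul, resRing_resRing, resRing_self]
            rfl }
      natural := fun V W hV h s => (resSec_resSec _ _ _ _).trans (resSec_resSec _ _ _ _).symm }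
  inv :=
    { app := fun V hV =>
        { toFun := fun x => (⟨fun j => (D.φ i j).hom.app (V ⊓ D.U j)
            (le_inf (inf_le_left.trans hV) inf_le_right) (resSec (D.N i) inf_le_left x),
            fun j k W hj hk => by
              rw [← (D.φ i j).hom.natural, ← (D.φ i k).hom.natural, resSec_resSec, resSec_resSec]
              exact D.cocycle i j k W ((hj.trans inf_le_left).trans hV) (hj.trans inf_le_right)
                (hk.trans inf_le_right) _⟩ : D.sec V)
          map_add' := fun x y => Subtype.ext (funext fun j => by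
            show (D.φ i j).hom.app _ _ (resSec _ _ (x + y)) = _ + _
            rw [map_add, map_add])
          map_smul' := fun r x => Subtype.ext (funext fun j => by
            show (D.φ i j).hom.app _ _ (resSec _ _ (r • x)) = _
            rw [resSec_smul, map_smul]
            rfl) }
      natural := fun V W hV h x => Subtype.ext (funext fun j => by
        show (D.φ i j).hom.app _ _ (resSec _ _ (resSec _ h x)) =
          resSec _ (inf_le_inf_right _ h) ((D.φ i j).hom.app _ _ (resSec _ _ x))
        rw [← (D.φ i j).hom.natural, resSec_resSec, resSec_resSec]) }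
  hom_inv := HomOn.ext' fun V hV s => Subtype.ext (funext fun j => by
    show (D.φ i j).hom.app _ _ (resSec _ _ (resSec _ _ ((show D.sec V from s).1 i))) =
      (show D.sec V from s).1 j
    rw [resSec_resSec]
    exact (D.sec_compat s i j (V ⊓ D.U j) _ le_rfl).trans (resSec_self _ _ _))
  inv_hom := HomOn.ext' fun V hV x => by
    show resSec (D.N i) _ ((D.φ i i).hom.app _ _ (resSec (D.N i) inf_le_left x)) = x
    rw [D.φ_self i _ inf_le_right, resSec_resSec, resSec_self]

/-- The comparisons agree with the transition isomorphisms. -/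
theorem glueIso_compat (i j : D.ι) :
    ((D.glueIso i).restrict (inf_le_left : D.U i ⊓ D.U j ≤ D.U i)).trans (D.φ i j) =
      (D.glueIso j).restrict inf_le_right :=
  IsoOn.ext_hom (HomOn.ext' fun V hV s => by
    show (D.φ i j).hom.app V hV (resSec (D.N i) _ ((show D.sec V from s).1 i)) =
      resSec (D.N j) _ ((show D.sec V from s).1 j)
    exact D.sec_compat s i j V _ _)

end GlueData

end Fermat.Agent.RelPic
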