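import Fermat.Agent.RelPic.Modules.Affine

/-!
# There is a set of isomorphism classes of invertible modules

An invertible module is determined up to isomorphism by a cover indexed by the points and the
transition functions between generators.
-/

set_option autoImplicit false

noncomputable section

universe u v

open CategoryTheory CategoryTheory.Limits AlgebraicGeometry TopologicalSpace Opposite NeronModelInfra RelPicard

namespace Fermat.Agent.RelPic

variable {X : Scheme.{u}}

/-- Covers indexed by the points, with a function on each overlap. -/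
abbrev CocycleCode (X : Scheme.{u}) : Type u :=
  Σ U : X → X.Opens, ∀ x y : X, Γ(X, U x ⊓ U y)

/-- The module has generators on the cover with the given transition functions. -/
def HasCocycle (M : X.Modules) (d : CocycleCode X) : Prop :=
  ∃ s : ∀ x, Γ(M, d.1 x), (∀ x, x ∈ d.1 x) ∧ (∀ x, IsGen (s x)) ∧
    ∀ x y, resSec M inf_le_left (s x) = d.2 x y • resSec M inf_le_right (s y)

theorem exists_hasCocycle {M : X.Modules} (hM : Scheme.Modules.IsInvertible M) :
    ∃ d, HasCocycle M d := by
  choose U hU s hs using fun x => exists_isGen hM x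
  choose d hd using fun x y =>
    ((hs y) (U x ⊓ U y) inf_le_right).2 (resSec M inf_le_left (s x))
  exact ⟨⟨U, d⟩, s, hU, hs, fun x y => (hd x y).symm⟩

theorem nonempty_iso_of_hasCocycle {M M' : X.Modules} {d : CocycleCode X} (h : HasCocycle M d)
    (h' : HasCocycle M' d) : Nonempty (M ≅ M') := by
  obtain ⟨U, d⟩ := d
  obtain ⟨s, hU, hs, hd⟩ := h
  obtain ⟨s', -, hs', hd'⟩ := h'
  dsimp only at s hU hs hd s' hs' hd'
  have happ : ∀ x V (hV : V ≤ U x) (a : Γ(X, V)),
      ((hs x).isoOn.symm.trans (hs' x).isoOn).hom.app V hV (a • resSec M hV (s x)) =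
        a • resSec M' hV (s' x) := fun x V hV a => by
    show (hs' x).isoOn.hom.app V hV ((hs x).isoOn.inv.app V hV (a • _)) = _
    have h1 : (hs x).isoOn.inv.app V hV (a • resSec M hV (s x)) = toUnit V a := by
      rw [← (hs x).isoOn.inv_hom_app V hV (toUnit V a)]
      rfl
    rw [h1]
    rfl
  refine ⟨(IsoOn.glue U (fun _ => le_top) (fun x _ => TopologicalSpace.Opens.mem_iSup.mpr ⟨x, hU x⟩)
    (fun x => (hs x).isoOn.symm.trans (hs' x).isoOn) fun x y =>
      IsoOn.ext_hom (HomOn.ext' fun V hV z => ?_)).toIso⟩
  obtain ⟨a, rfl⟩ := (hs x V (hV.trans inf_le_left)).2 z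
  show ((hs x).isoOn.symm.trans (hs' x).isoOn).hom.app V _ _ =
    ((hs y).isoOn.symm.trans (hs' y).isoOn).hom.app V _ _
  rw [happ]
  have e := congrArg (resSec M hV) (hd x y)
  have e' := congrArg (resSec M' hV) (hd' x y)
  rw [resSec_smul, resSec_resSec, resSec_resSec] at e e'
  show _ = ((hs y).isoOn.symm.trans (hs' y).isoOn).hom.app V _ (a • _)
  rw [e', e, ← mul_smul, ← mul_smul, happ]

/-- A type of invertible modules up to isomorphism is small. -/
theorem small_of_isInvertible {α : Type v} (f : α → X.Modules)
    (hf : ∀ a, Scheme.Modules.IsInvertible (f a))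
    (h : ∀ a b, Nonempty (f a ≅ f b) → a = b) : Small.{u} α := by
  choose d hd using fun a => exists_hasCocycle (hf a)
  exact small_of_injective (f := d) fun a b e =>
    h a b (nonempty_iso_of_hasCocycle (hd a) (e ▸ hd b))

/-- The classes of rigidified line bundles form a set. -/
instance small_classes {R : Type u} [CommRing R] {C : Scheme.{u}}
    (c : C ⟶ Spec (CommRingCat.of R)) (ε : SchemeHomOver (𝟙 (Spec (CommRingCat.of R))) c)
    {T : Scheme.{u}} (t : T ⟶ Spec (CommRingCat.of R)) :
    Small.{u} (RigidifiedLineBundle.Classes c ε t) :=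
  small_of_isInvertible (fun a : RigidifiedLineBundle.Classes c ε t => (Quotient.out a).L)
    (fun a => (Quotient.out a).isInvertible)
    fun a b h => ((Quotient.out_eq a).symm.trans (Quotient.sound h)).trans (Quotient.out_eq b)

end Fermat.Agent.RelPic
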